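import Mathlib.Data.Nat.Choose.Factorization
import Mathlib.Data.Nat.Factorization.Root
import Mathlib.Data.Nat.Factorial.BigOperators
import Mathlib.Tactic.IntervalCases
import Mathlib.Tactic.LinearCombination
import Mathlib.Tactic.Linarith
import Mathlib.Tactic.Positivity
import Mathlib.Tactic.Ring

/-!
# Erdős: binomial coefficients are almost never powers

For a perfect power `n.choose k = m ^ l`, `4 ≤ k`, `2 k ≤ n`, counting primes gives `k ^ l ≤ n`;
then the `l`-th power free parts of `n - k + 1, …, n` are `1, …, k` in some order, which is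
absurd: for `l = 2` because of `4`, for `l ≥ 3` because of `1`, `2`, `4`.
-/

set_option autoImplicit false

noncomputable section

namespace FA.Erdos

open Finset Nat

/-- The number of primes up to `s`. -/
def primesUpTo (s : ℕ) : ℕ := #((range (s + 1)).filter Nat.Prime)

theorem primesUpTo_add_two {s : ℕ} (hs : 2 ≤ s) : primesUpTo (s + 2) ≤ primesUpTo s + 1 := by
  unfold primesUpTo
  rw [range_add_one (n := s + 2), range_add_one (n := s + 1), filter_insert, filter_insert]
  rcases Nat.even_or_odd s with h | h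
  · rw [if_neg fun hp : (s + 2).Prime => by
      rcases hp.eq_two_or_odd' with h' | h'
      · omega
      · exact Nat.not_odd_iff_even.2 (h.add even_two) h']
    split_ifs
    · exact card_insert_le _ _
    · omega
  · rw [if_neg (c := (s + 1).Prime) fun hp : (s + 1).Prime => by
      rcases hp.eq_two_or_odd' with h' | h'
      · omega
      · exact Nat.not_odd_iff_even.2 (h.add_odd odd_one) h']
    split_ifs
    · exact card_insert_le _ _
    · omega

theorem two_mul_primesUpTo_lt : ∀ {s : ℕ}, 9 ≤ s → 2 * primesUpTo s + 1 ≤ s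
  | 0, h | 1, h | 2, h | 3, h | 4, h | 5, h | 6, h | 7, h | 8, h => by omega
  | 9, _ => by decide
  | 10, _ => by decide
  | s + 11, _ => by
    have := two_mul_primesUpTo_lt (s := s + 9) (by omega)
    have h' := primesUpTo_add_two (s := s + 9) (by omega)
    rw [show s + 9 + 2 = s + 11 by omega] at h'
    omega

theorem two_mul_primesUpTo_pred_le {k : ℕ} (hk : 2 ≤ k) : 2 * primesUpTo (k - 1) ≤ k := by
  by_cases h : k ≤ 9
  · interval_cases k <;> decide
  · have := two_mul_primesUpTo_lt (s := k - 1) (by omega)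
    omega

/-- A binomial coefficient with all its primes at most `s` is at most `n ^ primesUpTo s`. -/
theorem choose_le_pow_primesUpTo {n k s : ℕ} (hn : 0 < n) (hkn : k ≤ n)
    (h : ∀ p, p.Prime → p ∣ n.choose k → p ≤ s) : n.choose k ≤ n ^ primesUpTo s := by
  have h0 : n.choose k ≠ 0 := (Nat.choose_pos hkn).ne'
  conv_lhs => rw [← Nat.prod_factorization_pow_eq_self h0]
  refine le_trans (Finset.prod_le_pow_card _ _ n fun p _ => pow_factorization_choose_le hn) ?_
  refine Nat.pow_le_pow_right hn (card_le_card fun p hp => ?_)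
  rw [Nat.support_factorization, Nat.mem_primeFactors] at hp
  exact mem_filter.2 ⟨mem_range.2 (Nat.lt_succ_of_le (h p hp.1 hp.2.1)), hp.1⟩

/-- `(n / k) ^ k < n.choose k`. -/
theorem pow_lt_pow_mul_choose {n k : ℕ} (hk : 2 ≤ k) (hkn : k < n) :
    n ^ k < k ^ k * n.choose k := by
  have h : (∏ i ∈ range k, n * (k - i)) < ∏ i ∈ range k, k * (n - i) := by
    refine prod_lt_prod (fun i hi => ?_) (fun i hi => ?_) ⟨1, mem_range.2 hk, ?_⟩
    · have := mem_range.1 hi
      exact Nat.mul_pos (by omega) (by omega)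
    · rw [Nat.mul_sub, Nat.mul_sub, mul_comm n k]
      exact Nat.sub_le_sub_left (Nat.mul_le_mul_right i hkn.le) _
    · rw [Nat.mul_sub, Nat.mul_sub, mul_comm n k, mul_one, mul_one]
      have : n ≤ k * n := Nat.le_mul_of_pos_left n (by omega)
      omega
  rw [prod_mul_distrib, prod_mul_distrib, prod_const, prod_const, card_range,
    ← descFactorial_eq_prod_range, ← descFactorial_eq_prod_range, descFactorial_self,
    descFactorial_eq_factorial_mul_choose, mul_left_comm, mul_comm (n ^ k)] at h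
  exact Nat.lt_of_mul_lt_mul_left h

/-- Monotonicity of `n.choose` up to the middle. -/
theorem choose_mono_half {n i j : ℕ} (hij : i ≤ j) (hj : 2 * j ≤ n) :
    n.choose i ≤ n.choose j := by
  induction j, hij using Nat.le_induction with
  | base => exact le_rfl
  | succ j _ ih => exact (ih (by omega)).trans (choose_le_succ_of_lt_half_left (by omega))

theorem succ_pow_mul_sub_le (s : ℕ) : ∀ j, j < s → (s + 1) ^ j * (s - j) ≤ s ^ (j + 1)
  | 0, _ => by simp
  | j + 1, hj => by
    obtain ⟨t, ht⟩ : ∃ t, s - (j + 1) = t := ⟨_, rfl⟩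
    have ih := succ_pow_mul_sub_le s j (by omega)
    rw [show s - j = t + 1 by omega] at ih
    rw [ht, pow_succ, pow_succ s (j + 1), mul_assoc]
    calc (s + 1) ^ j * ((s + 1) * t) ≤ (s + 1) ^ j * ((t + 1) * s) :=
          Nat.mul_le_mul_left _ (by
            have : t ≤ s := by omega
            nlinarith)
      _ ≤ s ^ (j + 1) * s := by rw [← mul_assoc]; exact Nat.mul_le_mul_right s ih

theorem succ_pow_le {s : ℕ} (hs : 3 ≤ s) : (s + 1) ^ (s + 1) ≤ s ^ (s + 3) := by
  obtain ⟨r, rfl⟩ : ∃ r, s = r + 1 := ⟨s - 1, by omega⟩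
  have h := succ_pow_mul_sub_le (r + 1) r (by omega)
  rw [Nat.add_sub_cancel_left, mul_one] at h
  calc (r + 1 + 1) ^ (r + 1 + 1) = (r + 1 + 1) ^ r * (r + 1 + 1) ^ 2 := by ring
    _ ≤ (r + 1) ^ (r + 1) * (r + 1) ^ 3 := Nat.mul_le_mul h (by nlinarith)
    _ = (r + 1) ^ (r + 1 + 3) := by ring

/-- The finitely many small cases of the range step. -/
theorem range_small : ∀ s < 9, ∀ n < 81, 8 ≤ n → s * s ≤ n → n < (s + 1) * (s + 1) →
    n ^ primesUpTo s * (s + 1)! < n.descFactorial (s + 1) := by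
  decide

/-- The prime factors of a perfect power `n.choose k = m ^ l` have `p ^ l ≤ n`. -/
theorem pow_le_of_dvd {n k l m p : ℕ} (hn : 0 < n) (hkn : k ≤ n) (hp : p.Prime)
    (h : n.choose k = m ^ l) (hd : p ∣ n.choose k) : p ^ l ≤ n := by
  refine le_trans (Nat.pow_le_pow_right hp.pos ?_) (pow_factorization_choose_le (k := k) hn)
  have hpos := hp.factorization_pos_of_dvd (Nat.choose_pos hkn).ne' hd
  rw [h, Nat.factorization_pow, Finsupp.smul_apply, smul_eq_mul] at hpos ⊢
  exact Nat.le_mul_of_pos_right l (Nat.pos_of_mul_pos_left hpos)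

/-- A perfect power has `k ^ 2 ≤ n`: the substitute for Sylvester's theorem. -/
theorem sq_le_of_eq_pow {n k l m : ℕ} (hk : 4 ≤ k) (hkn : 2 * k ≤ n) (hl : 2 ≤ l)
    (h : n.choose k = m ^ l) : k * k ≤ n := by
  by_contra hlt
  obtain ⟨s, hs⟩ : ∃ s, Nat.sqrt n = s := ⟨_, rfl⟩
  have h1 : s * s ≤ n := hs ▸ Nat.sqrt_le n
  have h2 : n < (s + 1) * (s + 1) := hs ▸ Nat.lt_succ_sqrt n
  have hsk : s < k := by nlinarith
  have hC : n.choose (s + 1) ≤ n ^ primesUpTo s := by
    refine (choose_mono_half hsk hkn).trans (choose_le_pow_primesUpTo (by omega) (by omega) ?_)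
    intro p hp hd
    rw [← hs, Nat.le_sqrt']
    exact (Nat.pow_le_pow_right hp.pos hl).trans (pow_le_of_dvd (by omega) (by omega) hp h hd)
  by_cases h9 : s < 9
  · have := range_small s h9 n (by nlinarith) (by omega) h1 h2
    rw [descFactorial_eq_factorial_mul_choose, mul_comm] at this
    exact absurd (Nat.lt_of_mul_lt_mul_left this) (not_lt.2 hC)
  · have hP := two_mul_primesUpTo_lt (s := s) (by omega)
    have hlo := pow_lt_pow_mul_choose (n := n) (k := s + 1) (by omega) (by omega)
    obtain ⟨e, he⟩ : ∃ e, e + primesUpTo s = s + 1 := ⟨s + 1 - primesUpTo s, by omega⟩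
    have hbig : (s + 1) ^ (s + 1) ≤ n ^ e :=
      calc (s + 1) ^ (s + 1) ≤ s ^ (s + 3) := succ_pow_le (by omega)
        _ ≤ s ^ (2 * e) := Nat.pow_le_pow_right (by omega) (by omega)
        _ = (s * s) ^ e := by rw [pow_mul, sq]
        _ ≤ n ^ e := Nat.pow_le_pow_left h1 e
    have := Nat.mul_le_mul hbig hC
    rw [← pow_add, he] at this
    omega

/-- A perfect power has `k ^ l ≤ n`. -/
theorem pow_le_of_eq_pow {n k l m : ℕ} (hk : 4 ≤ k) (hkn : 2 * k ≤ n) (hl : 2 ≤ l)
    (h : n.choose k = m ^ l) : k ^ l ≤ n := by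
  by_contra hlt
  have h2 := sq_le_of_eq_pow hk hkn hl h
  have hC : n.choose k ≤ n ^ primesUpTo (k - 1) := by
    refine choose_le_pow_primesUpTo (by omega) (by omega) fun p hp hd => ?_
    have := lt_of_pow_lt_pow_left' l
      ((pow_le_of_dvd (by omega) (by omega) hp h hd).trans_lt (not_le.1 hlt))
    omega
  have hP := two_mul_primesUpTo_pred_le (k := k) (by omega)
  have hlo := pow_lt_pow_mul_choose (n := n) (k := k) (by omega) (by omega)
  obtain ⟨e, he⟩ : ∃ e, e + primesUpTo (k - 1) = k := ⟨k - primesUpTo (k - 1), by omega⟩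
  have hbig : k ^ k ≤ n ^ e :=
    calc k ^ k ≤ k ^ (2 * e) := Nat.pow_le_pow_right (by omega) (by omega)
      _ = (k * k) ^ e := by rw [pow_mul, sq]
      _ ≤ n ^ e := Nat.pow_le_pow_left h2 e
  have := Nat.mul_le_mul hbig hC
  rw [← pow_add, he] at this
  omega

/-- The `l`-th power free part. -/
def freePart (l x : ℕ) : ℕ := x / floorRoot l x ^ l

theorem freePart_mul (l x : ℕ) : freePart l x * floorRoot l x ^ l = x :=
  Nat.div_mul_cancel floorRoot_pow_dvd

theorem freePart_ne_zero {l x : ℕ} (hx : x ≠ 0) : freePart l x ≠ 0 := fun h => hx (by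
  rw [← freePart_mul l x, h, zero_mul])

theorem floorRoot_pos {l x : ℕ} (hl : l ≠ 0) (hx : x ≠ 0) : 0 < floorRoot l x :=
  Nat.pos_of_ne_zero (floorRoot_ne_zero.2 ⟨hl, hx⟩)

theorem factorization_freePart {l x p : ℕ} :
    (freePart l x).factorization p = x.factorization p % l := by
  rw [freePart, factorization_div floorRoot_pow_dvd, Finsupp.tsub_apply, Nat.factorization_pow,
    Finsupp.smul_apply, factorization_floorRoot, Finsupp.floorDiv_apply, smul_eq_mul,
    Nat.floorDiv_eq_div]
  have := Nat.mod_add_div (x.factorization p) l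
  omega

theorem descFactorial_eq_prod_Ioc {n : ℕ} : ∀ {k : ℕ}, k ≤ n →
    n.descFactorial k = ∏ x ∈ Ioc (n - k) n, x
  | 0, _ => by simp
  | k + 1, hk => by
    rw [descFactorial_succ, descFactorial_eq_prod_Ioc (by omega),
      show Ioc (n - (k + 1)) n = insert (n - k) (Ioc (n - k) n) by
        ext x; simp only [mem_Ioc, mem_insert]; omega,
      prod_insert (by simp)]

/-- Among `k` consecutive numbers at most `k / d + 1` are multiples of `d`. -/
theorem card_multiples_le {n k d : ℕ} (hk : k ≤ n) :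
    #((Ioc (n - k) n).filter (d ∣ ·)) ≤ k / d + 1 := by
  have h := congrArg (fun S : Finset ℕ => #(S.filter (d ∣ ·)))
    (Ioc_union_Ioc_eq_Ioc (Nat.zero_le (n - k)) (Nat.sub_le n k))
  simp only [filter_union] at h
  rw [card_union_of_disjoint (disjoint_filter_filter (Ioc_disjoint_Ioc_of_le le_rfl)),
    Ioc_filter_dvd_card_eq_div, Ioc_filter_dvd_card_eq_div] at h
  have := Nat.add_div_le_div_add_div_add_one (n - k) k d
  rw [Nat.sub_add_cancel hk] at this
  omega

/-- The product of the free parts divides `k!`. -/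
theorem prod_freePart_dvd {n k l m : ℕ} (hl : 2 ≤ l) (hk : k ≤ n) (h : n.choose k = m ^ l) :
    ∏ x ∈ Ioc (n - k) n, freePart l x ∣ k ! := by
  set S := Ioc (n - k) n
  have hS : ∀ x ∈ S, x ≠ 0 := fun x hx => by have := mem_Ioc.1 hx; omega
  have hS' : ∀ x ∈ S, freePart l x ≠ 0 := fun x hx => freePart_ne_zero (hS x hx)
  refine (Nat.factorization_le_iff_dvd (prod_ne_zero_iff.2 hS') (factorial_ne_zero k)).1 fun p => ?_
  rw [Nat.factorization_prod_apply hS']
  simp only [factorization_freePart]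
  by_cases hp : p.Prime
  swap
  · simp [Nat.factorization_eq_zero_of_not_prime _ hp]
  have htot : ∑ x ∈ S, x.factorization p = (k !).factorization p + l * m.factorization p := by
    rw [← Nat.factorization_prod_apply hS, ← descFactorial_eq_prod_Ioc hk,
      descFactorial_eq_factorial_mul_choose,
      Nat.factorization_mul (factorial_ne_zero k) (Nat.choose_pos hk).ne', h,
      Finsupp.add_apply, Nat.factorization_pow, Finsupp.smul_apply, smul_eq_mul]
  have hsplit : ∑ x ∈ S, x.factorization p % l + l * ∑ x ∈ S, x.factorization p / l =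
      ∑ x ∈ S, x.factorization p := by
    rw [mul_sum, ← sum_add_distrib]
    exact sum_congr rfl fun x _ => Nat.mod_add_div _ l
  have hle : ∑ x ∈ S, x.factorization p % l ≤ (k !).factorization p + (l - 1) :=
    calc ∑ x ∈ S, x.factorization p % l
        ≤ ∑ x ∈ S, #((Icc 1 (l - 1)).filter (fun j => p ^ j ∣ x)) := by
          refine sum_le_sum fun x hx => ?_
          have hmod := Nat.mod_lt (x.factorization p) (show l > 0 by omega)
          refine le_trans (by simp)
            (card_le_card (s := Icc 1 (x.factorization p % l)) fun j hj => ?_)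
          rw [mem_Icc] at hj
          refine mem_filter.2 ⟨mem_Icc.2 ⟨hj.1, by omega⟩, ?_⟩
          rw [hp.pow_dvd_iff_le_factorization (hS x hx)]
          exact hj.2.trans (Nat.mod_le _ _)
      _ = ∑ j ∈ Icc 1 (l - 1), #(S.filter (fun x => p ^ j ∣ x)) := by
          simp only [card_filter]
          exact sum_comm
      _ ≤ ∑ j ∈ Icc 1 (l - 1), (k / p ^ j + 1) :=
          sum_le_sum fun j _ => card_multiples_le hk
      _ ≤ (k !).factorization p + (l - 1) := by
          rw [sum_add_distrib, sum_const, smul_eq_mul, mul_one, card_Icc,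
            Nat.add_sub_cancel,
            Nat.factorization_factorial hp (show log p k < log p k + l by omega)]
          refine Nat.add_le_add_right (sum_le_sum_of_subset fun j hj => ?_) _
          rw [mem_Icc] at hj
          exact mem_Ico.2 ⟨hj.1, by omega⟩
  rcases Nat.lt_or_ge (∑ x ∈ S, x.factorization p / l) (m.factorization p) with hlt | hge
  · have := Nat.mul_le_mul_left l (Nat.succ_le_of_lt hlt)
    rw [Nat.succ_eq_add_one, mul_add, mul_one] at this
    omega
  · have := Nat.mul_le_mul_left l hge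
    omega

/-- `k` positive integers with product at most `k!` are `1, …, k`. -/
theorem eq_Icc_of_prod_le : ∀ (T : Finset ℕ), 0 ∉ T →
    (#T)! ≤ ∏ x ∈ T, x ∧ (∏ x ∈ T, x ≤ (#T)! → T = Icc 1 #T) := by
  intro T
  induction T using Finset.induction_on_max with
  | empty => simp
  | insert a S hlt ih =>
    intro h0
    have haS : a ∉ S := fun h => (hlt a h).ne rfl
    obtain ⟨hge, heq⟩ := ih fun h => h0 (mem_insert_of_mem h)
    have hcard : #S + 1 ≤ a := by
      have : S ⊆ Ico 1 a := fun x hx => mem_Ico.2 ⟨Nat.pos_of_ne_zero fun e => h0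
        (mem_insert_of_mem (e ▸ hx)), hlt x hx⟩
      have := card_le_card this
      have : a ≠ 0 := fun e => h0 (e ▸ mem_insert_self a S)
      simp at *
      omega
    rw [card_insert_of_notMem haS, prod_insert haS, factorial_succ]
    refine ⟨Nat.mul_le_mul hcard hge, fun hle => ?_⟩
    have hfp := factorial_pos #S
    have ha : a = #S + 1 := by nlinarith
    subst ha
    rw [heq (Nat.le_of_mul_le_mul_left hle (Nat.succ_pos _)), Nat.card_Icc, Nat.add_sub_cancel]
    ext x
    simp only [mem_insert, mem_Icc]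
    omega

theorem pow_add_mul_le (r : ℕ) : ∀ l, r ^ (l + 1) + (l + 1) * r ^ l ≤ (r + 1) ^ (l + 1)
  | 0 => by simp
  | l + 1 => by
    have ih := Nat.mul_le_mul_left (r + 1) (pow_add_mul_le r l)
    rw [pow_succ' (r + 1) (l + 1)]
    refine le_trans ?_ ih
    rw [mul_add, pow_succ r (l + 1), pow_succ r l]
    nlinarith [Nat.zero_le (r ^ l * l), Nat.zero_le (r ^ l)]

/-- The free parts of `n - k + 1, …, n` are distinct. -/
theorem freePart_injOn {n k l : ℕ} (hk : 4 ≤ k) (hl : 2 ≤ l) (h2 : k * k ≤ n) :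
    Set.InjOn (freePart l) (Ioc (n - k) n : Finset ℕ) := by
  suffices key : ∀ x y, n - k < x → x < y → y ≤ n → freePart l x ≠ freePart l y by
    intro x hx y hy e
    simp only [coe_Ioc, Set.mem_Ioc] at hx hy
    rcases lt_trichotomy x y with h | h | h
    exacts [absurd e (key x y hx.1 h hy.2), h, absurd e.symm (key y x hy.1 h hx.2)]
  intro x y hx hxy hy e
  have ex := freePart_mul l x
  have ey := freePart_mul l y
  rw [← e] at ey
  have ha := Nat.pos_of_ne_zero (freePart_ne_zero (l := l) (x := x) (by omega))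
  have hr := floorRoot_pos (l := l) (x := x) (by omega) (by omega)
  generalize freePart l x = a at ex ey ha
  generalize floorRoot l x = r at ex hr
  generalize floorRoot l y = t at ey
  subst ex ey
  have hrt : r + 1 ≤ t :=
    Nat.succ_le_of_lt (lt_of_pow_lt_pow_left' l (Nat.lt_of_mul_lt_mul_left hxy))
  obtain ⟨j, rfl⟩ : ∃ j, l = j + 2 := ⟨l - 2, by omega⟩
  have hpow := (pow_add_mul_le r (j + 1)).trans (Nat.pow_le_pow_left hrt (j + 2))
  have hjr : 2 * r ^ (j + 1) ≤ (j + 1 + 1) * r ^ (j + 1) := Nat.mul_le_mul_right _ (by omega)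
  have hlk : a * (2 * r ^ (j + 1)) < k := by
    have : a * r ^ (j + 2) + a * ((j + 1 + 1) * r ^ (j + 1)) ≤ a * t ^ (j + 2) := by
      rw [← mul_add]
      exact Nat.mul_le_mul_left a hpow
    have := Nat.mul_le_mul_left a hjr
    omega
  have hsq : 4 * (a * r ^ (j + 2)) ≤ (a * (2 * r ^ (j + 1))) ^ 2 :=
    calc 4 * (a * r ^ (j + 2)) ≤ 4 * (a ^ 2 * r ^ (2 * (j + 1))) :=
          Nat.mul_le_mul_left 4 (Nat.mul_le_mul (Nat.le_self_pow two_ne_zero a)
            (Nat.pow_le_pow_right hr (by omega)))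
      _ = (a * (2 * r ^ (j + 1))) ^ 2 := by ring
  have := Nat.pow_lt_pow_left hlk two_ne_zero
  have : 4 * (n - k + 1) ≤ 4 * (a * r ^ (j + 2)) := Nat.mul_le_mul_left 4 (by omega)
  have : 4 * k ≤ k * k := Nat.mul_le_mul_right k hk
  rw [sq k] at *
  omega

/-- Two terms too close to be distinct `l`-th powers. -/
theorem false_of_close {n k l u v : ℕ} (hk : 4 ≤ k) (hl : 3 ≤ l) (hn : k ^ l ≤ n) (huv : u < v)
    (hv : 4 * v ^ l ≤ n ^ 2) (hu : (n + 1 - k) ^ 2 ≤ 4 * u ^ l) : False := by
  obtain ⟨w, hw⟩ : ∃ w, n + 1 - k = w := ⟨_, rfl⟩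
  rw [hw] at hu
  have h64 : 16 * k ≤ n :=
    le_trans (le_trans (show 16 * k ≤ k ^ 3 by
      rw [pow_succ, sq]; exact Nat.mul_le_mul_right k (Nat.mul_le_mul hk hk))
      (Nat.pow_le_pow_right (by omega) hl)) hn
  have hwk : w + k = n + 1 := by omega
  obtain ⟨j, rfl⟩ : ∃ j, l = j + 3 := ⟨l - 3, by omega⟩
  have hstep := (pow_add_mul_le u (j + 2)).trans (Nat.pow_le_pow_left huv (j + 3))
  have hu1 : u ^ (j + 3) = u ^ (j + 2) * u := pow_succ _ _
  have h1 : 12 * u ^ (j + 2) + w ^ 2 ≤ n ^ 2 := by nlinarith [Nat.zero_le (j * u ^ (j + 2))]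
  have h2 : 3 * w ^ 2 + w ^ 2 * u ≤ n ^ 2 * u := by nlinarith [Nat.mul_le_mul_right u h1]
  have h3 : n < (k - 1) * u := by
    obtain ⟨c, rfl⟩ : ∃ c, k = c + 1 := ⟨k - 1, by omega⟩
    obtain rfl : n = w + c := by omega
    rw [Nat.add_sub_cancel]
    by_contra hc
    have : 15 * c ≤ w := by omega
    nlinarith [Nat.mul_le_mul_left (2 * w + c) (not_lt.1 hc), Nat.mul_le_mul_left w this,
      Nat.mul_le_mul_left c this]
  have h4 : u ^ (j + 3) ≤ n ^ 2 :=
    ((Nat.pow_le_pow_left huv.le _).trans (Nat.le_mul_of_pos_left _ (by norm_num : 0 < 4))).trans hv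
  have h5 := Nat.pow_lt_pow_left h3 (show j + 3 ≠ 0 by omega)
  rw [mul_pow, show n ^ (j + 3) = n ^ (j + 1) * n ^ 2 by ring] at h5
  have h6 := Nat.lt_of_mul_lt_mul_right (h5.trans_le (Nat.mul_le_mul_left _ h4))
  have h7 : (k - 1) ^ (j + 3) ≤ n ^ (j + 1) :=
    ((Nat.pow_le_pow_left (Nat.sub_le k 1) _).trans hn).trans (Nat.le_self_pow (by omega) n)
  omega

/-- `y ^ 2 ≠ x z` for distinct numbers in a short interval. -/
theorem sq_ne_mul {n k x y z : ℕ} (hk : 4 ≤ k) (h2 : k * k ≤ n) (hx : n - k < x) (hx' : x ≤ n)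
    (hy : n - k < y) (hy' : y ≤ n) (hz : n - k < z) (hz' : z ≤ n) (hxy : x ≠ y) :
    y ^ 2 ≠ x * z := fun h => by
  obtain ⟨u, hu⟩ : ∃ u : ℤ, u = (y : ℤ) - x := ⟨_, rfl⟩
  obtain ⟨w, hw⟩ : ∃ w : ℤ, w = (z : ℤ) - y := ⟨_, rfl⟩
  have h' : ((y : ℤ)) ^ 2 = x * z := by exact_mod_cast h
  have e : (y : ℤ) * (w - u) = u * w := by rw [hu, hw]; linear_combination -h'
  have hu0 : u ≠ 0 := by omega
  have hwu : w - u ≠ 0 := fun e' => by
    rw [e', mul_zero] at e
    rcases mul_eq_zero.1 e.symm with e | e <;> omega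
  have hub : |u| ≤ (k : ℤ) - 1 := abs_le.2 (by omega)
  have hwb : |w| ≤ (k : ℤ) - 1 := abs_le.2 (by omega)
  have h1 : (y : ℤ) ≤ |u * w| := by
    rw [← e, abs_mul, Nat.abs_cast]
    exact le_mul_of_one_le_right (Nat.cast_nonneg y) (Int.one_le_abs hwu)
  have h2' : (k : ℤ) * k ≤ n := by exact_mod_cast h2
  have hyl : (n : ℤ) - k + 1 ≤ y := by omega
  rw [abs_mul] at h1
  nlinarith [mul_le_mul hub hwb (abs_nonneg w) (by omega)]

/-- **Erdős's theorem**, the half `2 k ≤ n`. -/
theorem choose_ne_pow {n k l m : ℕ} (hk : 4 ≤ k) (hkn : 2 * k ≤ n) (hl : 2 ≤ l) :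
    n.choose k ≠ m ^ l := fun h => by
  have h2 := sq_le_of_eq_pow hk hkn hl h
  have hn := pow_le_of_eq_pow hk hkn hl h
  have hinj := freePart_injOn hk hl h2
  set S := Ioc (n - k) n with hS
  have hcard : #(S.image (freePart l)) = k := by
    rw [card_image_of_injOn hinj, hS, Nat.card_Ioc]; omega
  have hT : S.image (freePart l) = Icc 1 k := by
    have h0 : 0 ∉ S.image (freePart l) := fun h0 => by
      obtain ⟨x, hx, e⟩ := mem_image.1 h0
      exact freePart_ne_zero (by have := mem_Ioc.1 hx; omega) e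
    have := (eq_Icc_of_prod_le _ h0).2 (by
      rw [hcard, prod_image hinj]
      exact Nat.le_of_dvd (factorial_pos k) (prod_freePart_dvd hl (by omega) h))
    rwa [hcard] at this
  have mem : ∀ a, 1 ≤ a → a ≤ k → ∃ x, n - k < x ∧ x ≤ n ∧ freePart l x = a := fun a h1 h4 => by
    obtain ⟨x, hx, e⟩ := mem_image.1 (show a ∈ S.image (freePart l) from
      hT ▸ mem_Icc.2 ⟨h1, h4⟩)
    exact ⟨x, (mem_Ioc.1 hx).1, (mem_Ioc.1 hx).2, e⟩
  obtain ⟨z, hz, hz', ez⟩ := mem 4 (by norm_num) (by omega)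
  rcases eq_or_lt_of_le hl with rfl | hl3
  · have := congrArg (fun a : ℕ => a.factorization 2) ez
    simp only [factorization_freePart] at this
    rw [show (4 : ℕ) = 2 ^ 2 by norm_num, Nat.prime_two.factorization_pow,
      Finsupp.single_eq_same] at this
    omega
  obtain ⟨x, hx, hx', ex⟩ := mem 1 (by norm_num) (by omega)
  obtain ⟨y, hy, hy', ey⟩ := mem 2 (by norm_num) (by omega)
  have hne := sq_ne_mul hk h2 hx hx' hy hy' hz hz' fun e => by rw [e, ey] at ex; omega
  have hx1 := freePart_mul l x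
  have hy1 := freePart_mul l y
  have hz1 := freePart_mul l z
  rw [ex, one_mul] at hx1
  rw [ey] at hy1
  rw [ez] at hz1
  generalize floorRoot l x = A at hx1
  generalize floorRoot l y = B at hy1
  generalize floorRoot l z = C at hz1
  subst hx1 hy1 hz1
  have e1 : (2 * B ^ l) ^ 2 = 4 * (B ^ 2) ^ l := by
    rw [mul_pow, ← pow_mul, ← pow_mul, mul_comm l]; norm_num
  have e2 : A ^ l * (4 * C ^ l) = 4 * (A * C) ^ l := by rw [mul_pow]; ring
  rcases lt_trichotomy (B ^ 2) (A * C) with hlt | heq | hgt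
  · refine false_of_close hk hl3 hn hlt ?_ ?_
    · rw [← e2, sq]; exact Nat.mul_le_mul hx' hz'
    · rw [← e1]; exact Nat.pow_le_pow_left (by omega) 2
  · exact hne (by rw [e1, e2, heq])
  · refine false_of_close hk hl3 hn hgt ?_ ?_
    · rw [← e1]; exact Nat.pow_le_pow_left hy' 2
    · rw [← e2, sq]; exact Nat.mul_le_mul (by omega) (by omega)

end FA.Erdos

end
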