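import Fermat.Agent.Erdos.SquareSylvester
import Mathlib.Data.Nat.Squarefree

/-!
# The theorem of Erdős and Rigge: no product of consecutive integers is a square

For a square product of `k ≥ 5` terms the squarefree parts are distinct with all primes below `k`.
For `k < 760` too many of them would be composed of the first few primes; beyond, their product
would exceed `k ! · primorial k` divided by the savings at the primes up to `19`.
-/

set_option autoImplicit false

noncomputable section

namespace FA.Erdos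

open Finset Nat

/-- Ranges `[a, b)` of lengths with the number `r` of primes left in the free parts. -/
def pigeonRanges : List (ℕ × ℕ × ℕ) :=
  [
    (5, 6, 1), (7, 8, 2), (9, 11, 2), (11, 12, 2), (12, 14, 2), (14, 15, 2), (15, 16, 2),
    (16, 18, 2), (18, 20, 2), (20, 22, 3), (22, 24, 3), (24, 27, 3), (27, 30, 3), (30, 34, 3),
    (34, 38, 3), (38, 42, 3), (42, 45, 3), (45, 48, 3), (48, 53, 3), (53, 59, 4), (59, 66, 4),
    (66, 72, 4), (72, 79, 4), (79, 87, 4), (87, 95, 4), (95, 104, 4), (104, 112, 4),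
    (112, 120, 4), (120, 131, 4), (131, 140, 4), (140, 150, 4), (150, 159, 4), (159, 168, 4),
    (168, 179, 5), (179, 189, 5), (189, 200, 5), (200, 212, 5), (212, 224, 5), (224, 235, 5),
    (235, 248, 5), (248, 261, 5), (261, 273, 5), (273, 284, 5), (284, 296, 5), (296, 308, 5),
    (308, 319, 5), (319, 332, 5), (332, 345, 5), (345, 357, 5), (357, 369, 5), (369, 380, 5),
    (380, 391, 5), (391, 402, 5), (402, 412, 5), (412, 422, 5), (422, 432, 6), (432, 440, 6),
    (440, 450, 6), (450, 460, 6), (460, 468, 6), (468, 477, 6), (477, 488, 6), (488, 498, 6),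
    (498, 509, 6), (509, 520, 6), (520, 531, 6), (531, 543, 6), (543, 555, 6), (555, 566, 6),
    (566, 578, 6), (578, 590, 6), (590, 600, 6), (600, 610, 6), (610, 619, 6), (619, 629, 6),
    (629, 639, 6), (639, 647, 6), (647, 655, 6), (655, 662, 6), (662, 668, 6), (668, 674, 6),
    (674, 681, 6), (681, 688, 6), (688, 695, 6), (695, 702, 6), (702, 709, 6), (709, 714, 6),
    (714, 720, 6), (720, 726, 6), (726, 733, 6), (733, 740, 6), (740, 745, 6), (745, 750, 6),
    (750, 755, 6), (755, 760, 6)]

/-- The contribution bound of the primes past the first `r`. -/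
def badBound (r k : ℕ) : ℕ :=
  (((smallPrimes.drop r).takeWhile fun p => Nat.ble (p + 1) k).map fun p => (k - 1) / p + 1).sum

theorem pigeonRanges_ok : ∀ t ∈ pigeonRanges,
    badBound t.2.2 (t.2.1 - 1) + 2 ^ t.2.2 < t.1 ∧ t.2.1 ≤ 760 := by
  decide +kernel

theorem exists_pigeonRange : ∀ k < 760, 5 ≤ k → k ≠ 6 → k ≠ 8 →
    ∃ t ∈ pigeonRanges, t.1 ≤ k ∧ k < t.2.1 := by
  decide +kernel

theorem descFactorial_ne_zero {n k x : ℕ} (hx : x ∈ Ioc (n - k) n) : x ≠ 0 := by
  have := mem_Ioc.1 hx
  omega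

/-- The parity of the exponents, summed over the interval, is even. -/
theorem even_sum_factorization {n k m p : ℕ} (hkn : k ≤ n) (h : n.descFactorial k = m ^ 2) :
    ∑ x ∈ Ioc (n - k) n, x.factorization p = 2 * m.factorization p := by
  rw [← Nat.factorization_prod_apply fun x hx => descFactorial_ne_zero hx,
    ← descFactorial_eq_prod_Ioc hkn, h, Nat.factorization_pow, Finsupp.smul_apply, smul_eq_mul]

/-- The primes of the squarefree parts are below `k`. -/
theorem prime_lt_of_dvd_freePart {n k m p x : ℕ} (hkn : k ≤ n) (h : n.descFactorial k = m ^ 2)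
    (hx : x ∈ Ioc (n - k) n) (hp : p.Prime) (hd : p ∣ freePart 2 x) : p < k := by
  by_contra hk
  have h1 := hp.factorization_pos_of_dvd (freePart_ne_zero (descFactorial_ne_zero hx)) hd
  rw [factorization_freePart] at h1
  have hdx : p ∣ x := Nat.dvd_of_factorization_pos (by omega)
  obtain ⟨hx1, hx2⟩ := mem_Ioc.1 hx
  have e := even_sum_factorization (p := p) hkn h
  rw [sum_eq_single x (fun y hy hne => Nat.factorization_eq_zero_of_not_dvd fun hd' =>
    hne (multiple_unique (not_lt.1 hk) hx1 hx2 (mem_Ioc.1 hy).1 (mem_Ioc.1 hy).2 hdx hd'))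
    (fun hxs => absurd hx hxs)] at e
  omega

theorem squarefree_freePart {x : ℕ} (hx : x ≠ 0) : Squarefree (freePart 2 x) :=
  (Nat.squarefree_iff_factorization_le_one (freePart_ne_zero hx)).2 fun p => by
    rw [factorization_freePart]
    omega

/-- At most `(k - 1) / d + 1` multiples of `d` among `k` consecutive numbers. -/
theorem card_multiples_le_pred {n k d : ℕ} (hkn : k ≤ n) (hd : 0 < d) :
    #((Ioc (n - k) n).filter (d ∣ ·)) ≤ (k - 1) / d + 1 := by
  refine (card_le_card_of_injOn (fun x => (x - (n - k + 1)) / d) (t := range ((k - 1) / d + 1))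
    (fun x hx => ?_) fun x hx y hy e => ?_).trans (card_range _).le
  · simp only [coe_filter, Set.mem_ofPred_eq, mem_Ioc] at hx
    rw [coe_range, Set.mem_Iio]
    exact Nat.lt_succ_of_le (Nat.div_le_div_right (by omega))
  · simp only [coe_filter, Set.mem_ofPred_eq, mem_Ioc] at hx hy
    rcases Nat.lt_trichotomy x y with hlt | heq | hgt
    · have h1 := Nat.le_of_dvd (by omega) (Nat.dvd_sub hy.2 hx.2)
      have h2 : (x - (n - k + 1) + d) / d ≤ (y - (n - k + 1)) / d :=
        Nat.div_le_div_right (by omega)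
      rw [Nat.add_div_right _ hd] at h2
      simp only at e
      omega
    · exact heq
    · have h1 := Nat.le_of_dvd (by omega) (Nat.dvd_sub hx.2 hy.2)
      have h2 : (y - (n - k + 1) + d) / d ≤ (x - (n - k + 1)) / d :=
        Nat.div_le_div_right (by omega)
      rw [Nat.add_div_right _ hd] at h2
      simp only at e
      omega

theorem card_filter_exists_le {n k : ℕ} (hkn : k ≤ n) : ∀ l : List ℕ, (∀ p ∈ l, 0 < p) →
    #((Ioc (n - k) n).filter fun x => ∃ p ∈ l, p ∣ x) ≤ (l.map fun p => (k - 1) / p + 1).sum := by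
  intro l
  induction l with
  | nil => simp
  | cons p l ih =>
    intro hl
    rw [List.map_cons, List.sum_cons]
    have h1 := card_multiples_le_pred hkn (hl p (List.mem_cons_self ..))
    have h2 := ih fun q hq => hl q (List.mem_cons_of_mem _ hq)
    refine le_trans (card_le_card (t := (Ioc (n - k) n).filter (p ∣ ·) ∪
      (Ioc (n - k) n).filter fun x => ∃ q ∈ l, q ∣ x) fun x hx => ?_)
      ((card_union_le _ _).trans (Nat.add_le_add h1 h2))
    simp only [mem_filter, mem_union, List.mem_cons, exists_eq_or_imp] at hx ⊢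
    tauto

/-- Few squarefree parts use only the primes of `R`. -/
theorem card_le_two_pow {n k : ℕ} (hk : 4 ≤ k) (h2 : k * k ≤ n) {G : Finset ℕ}
    (hG : G ⊆ Ioc (n - k) n) {R : Finset ℕ}
    (hR : ∀ x ∈ G, ∀ p, p.Prime → p ∣ freePart 2 x → p ∈ R) : #G ≤ 2 ^ #R := by
  rw [← card_powerset]
  refine card_le_card_of_injOn (fun x => (freePart 2 x).primeFactors) (fun x hx => ?_) ?_
  · rw [mem_coe, mem_powerset]
    exact fun p hp => hR x hx p (Nat.prime_of_mem_primeFactors hp) (Nat.dvd_of_mem_primeFactors hp)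
  · intro x hx y hy e
    refine freePart_injOn hk le_rfl h2 (hG hx) (hG hy) ?_
    rw [← Nat.prod_primeFactors_of_squarefree (squarefree_freePart (descFactorial_ne_zero (hG hx))),
      ← Nat.prod_primeFactors_of_squarefree (squarefree_freePart (descFactorial_ne_zero (hG hy)))]
    simp only at e
    rw [e]

theorem dvd_of_dvd_freePart {x p : ℕ} (h : p ∣ freePart 2 x) : p ∣ x := by
  rw [← freePart_mul 2 x]
  exact h.mul_right _

/-- The pigeonhole range. -/
theorem false_of_lt {n k m : ℕ} (hk : 5 ≤ k) (hk' : k < 760) (h6 : k ≠ 6) (h8 : k ≠ 8)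
    (hkn : k ≤ n) (h2 : k * k ≤ n) (h : n.descFactorial k = m ^ 2) : False := by
  obtain ⟨⟨a, b, r⟩, ht, ha, hb⟩ := exists_pigeonRange k hk' hk h6 h8
  obtain ⟨hsum, -⟩ := pigeonRanges_ok _ ht
  simp only at ha hb hsum
  unfold badBound at hsum
  set bad := (smallPrimes.drop r).takeWhile fun p => Nat.ble (p + 1) (b - 1)
  have hpos : ∀ p ∈ bad, 0 < p := fun p hp => by
    have hp' := List.mem_of_mem_drop ((List.takeWhile_prefix _).subset hp)
    have : ∀ q ∈ smallPrimes, 0 < q := by decide +kernel
    exact this p hp'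
  have hbadcard := card_filter_exists_le (n := n) hkn bad hpos
  have hmono : (bad.map fun p => (k - 1) / p + 1).sum ≤
      (bad.map fun p => (b - 1 - 1) / p + 1).sum :=
    List.sum_le_sum fun p _ => Nat.add_le_add_right (Nat.div_le_div_right (by omega)) 1
  have hgood := card_le_two_pow (n := n) (by omega) h2
    (G := (Ioc (n - k) n).filter fun x => ¬ ∃ p ∈ bad, p ∣ x) (filter_subset _ _)
    (R := (smallPrimes.take r).toFinset) (fun x hx p hp hd => by
      rw [mem_filter] at hx
      have hpk := prime_lt_of_dvd_freePart hkn h hx.1 hp hd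
      have hmem := mem_smallPrimes hp (by omega)
      rw [← List.take_append_drop r smallPrimes, List.mem_append] at hmem
      rcases hmem with hm | hm
      · exact List.mem_toFinset.2 hm
      · refine absurd ⟨p, ?_, dvd_of_dvd_freePart hd⟩ hx.2
        refine mem_takeWhile_lt (by omega) ?_ hm
        exact smallPrimes_sorted.drop)
  have hR : 2 ^ #(smallPrimes.take r).toFinset ≤ 2 ^ r :=
    Nat.pow_le_pow_right two_pos ((List.toFinset_card_le _).trans (List.length_take_le r _))
  have hsplit := card_filter_add_card_filter_not (s := Ioc (n - k) n)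
    (fun x => ∃ p ∈ bad, p ∣ x)
  rw [Nat.card_Ioc] at hsplit
  omega
where
  mem_takeWhile_lt {q p : ℕ} (h : p + 1 ≤ q) : ∀ {l : List ℕ}, l.Pairwise (· < ·) → p ∈ l →
      p ∈ l.takeWhile fun s => Nat.ble (s + 1) q := by
    intro l
    induction l with
    | nil => simp
    | cons r l ih =>
      intro hs hp
      rw [List.pairwise_cons] at hs
      have hrp : r ≤ p := by
        rcases List.mem_cons.1 hp with e | e
        · exact e.ge
        · exact (hs.1 p e).le
      rw [List.takeWhile_cons, if_pos (Nat.ble_eq_true_of_le (by omega))]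
      rcases List.mem_cons.1 hp with e | e
      · exact e ▸ List.mem_cons_self ..
      · exact List.mem_cons_of_mem _ (ih hs.2 e)

/-- Four consecutive numbers never multiply to `36` times a square. -/
theorem four_mul_ne {y c : ℕ} (hy : 0 < y) :
    y * (y + 1) * (y + 2) * (y + 3) ≠ 36 * c ^ 2 := fun h => by
  have e : (y * (y + 3) + 1) ^ 2 = (6 * c) ^ 2 + 1 := by linear_combination h
  rcases Nat.lt_or_ge (6 * c) (y * (y + 3) + 1) with hlt | hge
  · have := Nat.pow_le_pow_left (Nat.succ_le_of_lt hlt) 2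
    rw [Nat.succ_eq_add_one] at this
    nlinarith
  · have := Nat.pow_le_pow_left hge 2
    omega

/-- Lengths `6` and `8`: either five parts live on `{2, 3}`, or four consecutive ones do. -/
theorem false_six_eight {n k m j : ℕ} (hkj : (k = 6 ∧ j = 1) ∨ (k = 8 ∧ j = 2)) (hkn : k ≤ n)
    (h2 : k * k ≤ n) (h : n.descFactorial k = m ^ 2) : False := by
  set G := (Ioc (n - k) n).filter fun x => ¬ 5 ∣ x ∧ (k = 8 → ¬ 7 ∣ x) with hG
  have hR : ∀ x ∈ G, ∀ p, p.Prime → p ∣ freePart 2 x → p ∈ ({2, 3} : Finset ℕ) := by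
    intro x hx p hp hd
    rw [hG, mem_filter] at hx
    have hpk := prime_lt_of_dvd_freePart hkn h hx.1 hp hd
    have hdx := dvd_of_dvd_freePart hd
    have := hp.two_le
    have : p < 8 := by rcases hkj with ⟨rfl, -⟩ | ⟨rfl, -⟩ <;> omega
    interval_cases p
    · simp
    · simp
    · norm_num at hp
    · exact absurd hdx hx.2.1
    · norm_num at hp
    · exact absurd hdx (hx.2.2 (by rcases hkj with ⟨rfl, -⟩ | ⟨rfl, -⟩ <;> omega))
  have hG4 := card_le_two_pow (n := n) (by rcases hkj with ⟨rfl, -⟩ | ⟨rfl, -⟩ <;> norm_num) h2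
    (G := G) (filter_subset _ _) hR
  have hmid : ∀ i < 4, n - k + 1 + (j + i) ∈ G := by
    obtain ⟨w, hw⟩ : ∃ w, n - k + 1 = w := ⟨_, rfl⟩
    have hIoc : Ioc (n - k) n = (range k).image (w + ·) := by
      ext x
      simp only [mem_Ioc, mem_image, mem_range]
      exact ⟨fun hx => ⟨x - w, by omega, by omega⟩, fun ⟨i, hi, e⟩ => by omega⟩
    have key : ∀ a < 35,
        (5 ≤ #((range 6).filter fun i => (a + i) % 5 ≠ 0) ∨
          ∀ i < 4, (a + (1 + i)) % 5 ≠ 0) ∧
        (5 ≤ #((range 8).filter fun i => (a + i) % 5 ≠ 0 ∧ (a + i) % 7 ≠ 0) ∨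
          ∀ i < 4, (a + (2 + i)) % 5 ≠ 0 ∧ (a + (2 + i)) % 7 ≠ 0) := by decide +kernel
    obtain ⟨k6, k8⟩ := key (w % 35) (Nat.mod_lt _ (by norm_num))
    have hm5 : ∀ i, (w % 35 + i) % 5 = (w + i) % 5 := fun i => by omega
    have hm7 : ∀ i, (w % 35 + i) % 7 = (w + i) % 7 := fun i => by omega
    have hcount : #G = #((range k).filter fun i => (w + i) % 5 ≠ 0 ∧
        (k = 8 → (w + i) % 7 ≠ 0)) := by
      rw [hG, hIoc, filter_image, card_image_of_injective _ (add_right_injective w)]
      simp only [Nat.dvd_iff_mod_eq_zero, ne_eq]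
    intro i hi
    rw [hG, mem_filter, mem_Ioc, hw, Nat.dvd_iff_mod_eq_zero, Nat.dvd_iff_mod_eq_zero]
    refine ⟨by rcases hkj with ⟨rfl, rfl⟩ | ⟨rfl, rfl⟩ <;> omega, ?_⟩
    have h22 : (2 : ℕ) ^ #({2, 3} : Finset ℕ) = 4 := by decide
    rw [h22, hcount] at hG4
    rcases hkj with ⟨rfl, rfl⟩ | ⟨rfl, rfl⟩
    · rcases k6 with h5 | hall
      · simp only [hm5] at h5
        simp at hG4 h5
        omega
      · have := hall i hi
        rw [hm5] at this
        exact ⟨this, by omega⟩
    · rcases k8 with h5 | hall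
      · simp only [hm5, hm7] at h5
        simp at hG4 h5
        omega
      · have := hall i hi
        rw [hm5, hm7] at this
        exact ⟨this.1, fun _ => this.2⟩
  obtain ⟨y, hy⟩ : ∃ y, n - k + 1 + j = y := ⟨_, rfl⟩
  set M := (range 4).image (y + ·) with hM
  have hMG : M ⊆ G := fun x hx => by
    obtain ⟨i, hi, rfl⟩ := mem_image.1 hx
    rw [← hy, add_assoc]
    exact hmid i (mem_range.1 hi)
  have hk4 : 4 ≤ k := by rcases hkj with ⟨rfl, -⟩ | ⟨rfl, -⟩ <;> norm_num
  have hinj : Set.InjOn (freePart 2) M :=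
    (freePart_injOn hk4 le_rfl h2).mono fun x hx => filter_subset _ _ (hMG hx)
  have himg : M.image (freePart 2) = ({1, 2, 3, 6} : Finset ℕ) := by
    refine eq_of_subset_of_card_le (fun a ha => ?_) ?_
    · obtain ⟨x, hx, rfl⟩ := mem_image.1 ha
      have hsq := squarefree_freePart (descFactorial_ne_zero (filter_subset _ _ (hMG hx)))
      have hsub : (freePart 2 x).primeFactors ⊆ {2, 3} := fun p hp =>
        hR x (hMG hx) p (Nat.prime_of_mem_primeFactors hp) (Nat.dvd_of_mem_primeFactors hp)
      rw [← Nat.prod_primeFactors_of_squarefree hsq]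
      have := mem_powerset.2 hsub
      revert this
      generalize (freePart 2 x).primeFactors = T
      revert T
      decide
    · rw [Finset.card_image_of_injOn hinj, hM, card_image_of_injective _ (add_right_injective y)]
      decide
  have hprod : ∏ x ∈ M, x = 36 * (∏ x ∈ M, floorRoot 2 x) ^ 2 := by
    have : ∏ x ∈ M, freePart 2 x = 36 := by
      rw [← prod_image (f := fun a => a) hinj, himg]
      decide
    rw [← this, ← prod_pow, ← prod_mul_distrib]
    exact prod_congr rfl fun x _ => (freePart_mul 2 x).symm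
  refine four_mul_ne (y := y) (by omega) (c := ∏ x ∈ M, floorRoot 2 x) ?_
  rw [← hprod, hM, prod_image fun a _ b _ e => add_right_injective y e]
  simp [prod_range_succ]

/-- Numbers not divisible by `4`, `9` or `25`, counted with a running total. -/
def runCount : ℕ → ℕ → ℕ → Bool
  | 0, _, _ => true
  | fuel + 1, x, c =>
    let c' := if x % 4 ≠ 0 ∧ x % 9 ≠ 0 ∧ x % 25 ≠ 0 then c + 1 else c
    decide (25 * c' ≤ 16 * x + 57) && runCount fuel (x + 1) c'

theorem runCount_spec : ∀ fuel x, runCount fuel x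
    (Nat.count (fun i => i % 4 ≠ 0 ∧ i % 9 ≠ 0 ∧ i % 25 ≠ 0) x) = true → ∀ i < fuel,
    25 * Nat.count (fun i => i % 4 ≠ 0 ∧ i % 9 ≠ 0 ∧ i % 25 ≠ 0) (x + i + 1) ≤
      16 * (x + i) + 57 := by
  intro fuel
  induction fuel with
  | zero => intros; omega
  | succ fuel ih =>
    intro x h i hi
    simp only [runCount, Bool.and_eq_true, decide_eq_true_eq] at h
    have e : Nat.count (fun i => i % 4 ≠ 0 ∧ i % 9 ≠ 0 ∧ i % 25 ≠ 0) (x + 1) =
        if x % 4 ≠ 0 ∧ x % 9 ≠ 0 ∧ x % 25 ≠ 0
        then Nat.count (fun i => i % 4 ≠ 0 ∧ i % 9 ≠ 0 ∧ i % 25 ≠ 0) x + 1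
        else Nat.count (fun i => i % 4 ≠ 0 ∧ i % 9 ≠ 0 ∧ i % 25 ≠ 0) x := by
      rw [Nat.count_succ]; split_ifs <;> simp
    rw [← e] at h
    rcases i with _ | i
    · exact h.1
    · have := ih (x + 1) h.2 i (by omega)
      rw [show x + 1 + i = x + (i + 1) by ring] at this
      exact this

theorem count_sieve_le : ∀ x,
    25 * Nat.count (fun i => i % 4 ≠ 0 ∧ i % 9 ≠ 0 ∧ i % 25 ≠ 0) (x + 1) ≤ 16 * x + 57 := by
  intro x
  induction x using Nat.strongRecOn with
  | ind x ih =>
    have hbase : runCount 900 0 0 = true := by decide +kernel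
    rcases Nat.lt_or_ge x 900 with hx | hx
    · have := runCount_spec 900 0 (by rwa [Nat.count_zero]) x hx
      simpa using this
    · obtain ⟨y, rfl⟩ : ∃ y, x = 900 + y := ⟨x - 900, by omega⟩
      have h900 : Nat.count (fun i => i % 4 ≠ 0 ∧ i % 9 ≠ 0 ∧ i % 25 ≠ 0) 900 = 576 := by
        decide +kernel
      rw [show 900 + y + 1 = 900 + (y + 1) by ring, Nat.count_add, h900]
      have e : (fun i => (900 + i) % 4 ≠ 0 ∧ (900 + i) % 9 ≠ 0 ∧ (900 + i) % 25 ≠ 0) =
          fun i => i % 4 ≠ 0 ∧ i % 9 ≠ 0 ∧ i % 25 ≠ 0 := by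
        funext i
        rw [show (900 + i) % 4 = i % 4 by omega, show (900 + i) % 9 = i % 9 by omega,
          show (900 + i) % 25 = i % 25 by omega]
      have := ih y (by omega)
      simp only [e]
      omega

/-- **Sieve**: `k` distinct numbers free of `4`, `9`, `25` have a large product. -/
theorem pow_card_le_prod : ∀ T : Finset ℕ, (∀ x ∈ T, x % 4 ≠ 0 ∧ x % 9 ≠ 0 ∧ x % 25 ≠ 0) →
    3 ≤ #T → 25 ^ #T * (#T)! ≤ 16 ^ #T * (#T * (#T - 1) * (#T - 2)) * ∏ x ∈ T, x := by
  intro T
  induction T using Finset.induction_on_max with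
  | empty => simp
  | insert a S hlt ih =>
    intro hT hcard
    have haS : a ∉ S := fun h => (hlt a h).ne rfl
    rw [card_insert_of_notMem haS] at hcard ⊢
    have hsub : insert a S ⊆ (range (a + 1)).filter fun i =>
        i % 4 ≠ 0 ∧ i % 9 ≠ 0 ∧ i % 25 ≠ 0 := fun x hx =>
      mem_filter.2 ⟨mem_range.2 (Nat.lt_succ_of_le ((mem_insert.1 hx).elim le_of_eq
        fun h => (hlt x h).le)), hT x hx⟩
    have hc := card_le_card hsub
    rw [card_insert_of_notMem haS, ← Nat.count_eq_card_filter_range] at hc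
    have hsieve := count_sieve_le a
    rw [prod_insert haS]
    rcases Nat.lt_or_ge #S 3 with h3 | h3
    · have h0 : 0 ∉ insert a S := fun h => absurd (hT 0 h) (by simp)
      have hge := (eq_Icc_of_prod_le _ h0).1
      rw [card_insert_of_notMem haS, prod_insert haS] at hge
      obtain hs : #S = 2 := by omega
      rw [hs] at hge ⊢
      norm_num [Nat.factorial] at hge ⊢
      omega
    · obtain ⟨c, hcS⟩ : ∃ c, #S = c + 2 := ⟨#S - 2, by omega⟩
      have h' := ih (fun x hx => hT x (mem_insert_of_mem hx)) h3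
      rw [hcS] at h' ⊢
      rw [show c + 2 - 1 = c + 1 by omega, show c + 2 - 2 = c by omega] at h'
      rw [show c + 2 + 1 - 1 = c + 2 by omega, show c + 2 + 1 - 2 = c + 1 by omega,
        factorial_succ]
      have ha : 25 * c ≤ 16 * a := by omega
      calc 25 ^ (c + 2 + 1) * ((c + 2 + 1) * (c + 2)!)
          = 25 * (c + 2 + 1) * (25 ^ (c + 2) * (c + 2)!) := by ring
        _ ≤ 25 * (c + 2 + 1) *
            (16 ^ (c + 2) * ((c + 2) * (c + 1) * c) * (∏ x ∈ S, x)) :=
            Nat.mul_le_mul_left _ h'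
        _ = 16 ^ (c + 2) * ((c + 2 + 1) * (c + 2) * (c + 1)) * (25 * c) *
            (∏ x ∈ S, x) := by ring
        _ ≤ 16 ^ (c + 2) * ((c + 2 + 1) * (c + 2) * (c + 1)) * (16 * a) *
            (∏ x ∈ S, x) :=
            Nat.mul_le_mul_right _ (Nat.mul_le_mul_left _ ha)
        _ = _ := by ring

/-- The savings exponent at the prime `p`. -/
def saving (k p : ℕ) : ℕ :=
  if p = 2 then 2 * (k / 4) + 2 * (k / 16) + k / 64 + k / 128 + k / 256
  else 2 * (k / p ^ 2) + k / p ^ 4

/-- The primes with savings. -/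
def savingPrimes : Finset ℕ := {2, 3, 5, 7, 11, 13, 17, 19}

theorem savingPrimes_prime : ∀ p ∈ savingPrimes, p.Prime ∧ p ≤ 19 := by decide

theorem saving_base : ∀ k < 1660, 760 ≤ k →
    64 ^ k * k ^ 3 * (4 * (∏ p ∈ savingPrimes, p)) <
      25 ^ k * ∏ p ∈ savingPrimes, p ^ saving k p := by
  decide +kernel

theorem saving_step : 64 ^ 900 * 11 ≤ 25 ^ 900 * ∏ p ∈ savingPrimes, p ^ saving 900 p := by
  decide +kernel

theorem saving_lt : ∀ k, 760 ≤ k →
    64 ^ k * k ^ 3 * (4 * (∏ p ∈ savingPrimes, p)) <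
      25 ^ k * ∏ p ∈ savingPrimes, p ^ saving k p := by
  intro k
  induction k using Nat.strongRecOn with
  | ind k ih =>
    intro hk
    rcases Nat.lt_or_ge k 1660 with h | h
    · exact saving_base k h hk
    · obtain ⟨j, rfl⟩ : ∃ j, k = j + 900 := ⟨k - 900, by omega⟩
      have hj := ih j (by omega) (by omega)
      have hcube : (j + 900) ^ 3 ≤ j ^ 3 * 11 := by
        have hj' : 760 ≤ j := by omega
        nlinarith [Nat.mul_le_mul hj' hj', Nat.mul_le_mul_left (j * j) hj']
      have hmono : ∀ p ∈ savingPrimes,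
          p ^ saving j p * p ^ saving 900 p ≤ p ^ saving (j + 900) p := fun p hp => by
        rw [← pow_add]
        refine Nat.pow_le_pow_right (savingPrimes_prime p hp).1.pos ?_
        have key : ∀ d : ℕ, j / d + 900 / d ≤ (j + 900) / d := fun d =>
          Nat.div_add_div_le_add_div
        unfold saving
        split_ifs
        · have := key 4; have := key 16; have := key 64; have := key 128; have := key 256
          omega
        · have := key (p ^ 2); have := key (p ^ 4)
          omega
      have hprod := prod_le_prod' hmono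
      rw [prod_mul_distrib] at hprod
      generalize (4 * ∏ p ∈ savingPrimes, p) = C at hj ⊢
      generalize (∏ p ∈ savingPrimes, p ^ saving j p) = W at hj hprod
      generalize (∏ p ∈ savingPrimes, p ^ saving (j + 900) p) = W' at hprod ⊢
      have hstep := saving_step
      generalize (∏ p ∈ savingPrimes, p ^ saving 900 p) = D at hprod hstep
      rw [pow_add 64, pow_add 25]
      generalize 64 ^ j = A at hj ⊢
      generalize 25 ^ j = B at hj ⊢
      have hU : 0 < (64 : ℕ) ^ 900 := pow_pos (show 0 < 64 by omega) _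
      generalize 64 ^ 900 = U at hstep hU ⊢
      generalize 25 ^ 900 = V at hstep ⊢
      have hD : 0 < V * D := by omega
      calc A * U * (j + 900) ^ 3 * C ≤ A * U * (j ^ 3 * 11) * C := by gcongr
        _ = A * j ^ 3 * C * (U * 11) := by ring
        _ ≤ A * j ^ 3 * C * (V * D) := Nat.mul_le_mul_left _ hstep
        _ < B * W * (V * D) := Nat.mul_lt_mul_of_pos_right hj hD
        _ = B * V * (W * D) := by ring
        _ ≤ B * V * W' := Nat.mul_le_mul_left _ hprod

/-- The exponent bound at `p`. -/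
theorem exponent_bound {n k p : ℕ} (hkn : k ≤ n) (hp : p.Prime) :
    (∑ x ∈ Ioc (n - k) n, x.factorization p % 2) +
        (if p ∈ savingPrimes then saving k p else 0) ≤
      (k !).factorization p + 1 +
        (if p ∈ savingPrimes then (if p = 2 then 2 else 1) else 0) := by
  have hfac : ∀ T, (∀ i ∈ T, 1 ≤ i ∧ i ≤ 8) → ∑ i ∈ T, k / p ^ i ≤ (k !).factorization p :=
    fun T hT => by
      rw [Nat.factorization_factorial hp (show log p k < max (log p k + 1) 9 by omega)]
      exact sum_le_sum_of_subset fun i hi => mem_Ico.2 ⟨(hT i hi).1, by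
        have := (hT i hi).2; omega⟩
  have hN : ∀ j, #((Ioc (n - k) n).filter (p ^ j ∣ ·)) ≤ k / p ^ j + 1 := fun j =>
    card_multiples_le hkn
  have hL : ∀ j, k / p ^ j ≤ #((Ioc (n - k) n).filter (p ^ j ∣ ·)) := fun j =>
    le_card_multiples hkn
  have hsum : ∀ T : Finset ℕ, ∀ U : Finset ℕ, (∀ v : ℕ, v % 2 + #(U.filter (· ≤ v)) ≤
      #(T.filter (· ≤ v))) →
      (∑ x ∈ Ioc (n - k) n, x.factorization p % 2) +
        ∑ j ∈ U, #((Ioc (n - k) n).filter (p ^ j ∣ ·)) ≤
      ∑ j ∈ T, #((Ioc (n - k) n).filter (p ^ j ∣ ·)) := by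
    intro T U hv
    simp only [card_filter]
    rw [sum_comm (t := Ioc (n - k) n), sum_comm (t := Ioc (n - k) n), ← sum_add_distrib]
    refine sum_le_sum fun x hx => ?_
    simp only [← card_filter, hp.pow_dvd_iff_le_factorization (descFactorial_ne_zero hx)]
    exact hv _
  by_cases hp2 : p = 2
  · subst hp2
    rw [if_pos (by decide), if_pos (by decide), if_pos rfl, saving, if_pos rfl]
    have h1 := hsum {1, 3, 5} {2, 4} (fun v => by
      rcases Nat.lt_or_ge v 6 with hv | hv
      · interval_cases v <;> decide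
      · rw [filter_true_of_mem (fun i hi => by simp at hi; omega),
          filter_true_of_mem (fun i hi => by simp at hi; omega)]
        simp; omega)
    have h2 := hfac {1, 2, 3, 4, 5, 6, 7, 8} (fun i hi => by simp at hi; omega)
    simp at h1 h2
    have := hN 1; have := hL 2; have := hN 3; have := hL 4; have := hN 5
    norm_num at *
    omega
  · by_cases hT : p ∈ savingPrimes
    · rw [if_pos hT, if_pos hT, if_neg hp2, saving, if_neg hp2]
      have h1 := hsum {1, 3} {2} (fun v => by
        rcases Nat.lt_or_ge v 4 with hv | hv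
        · interval_cases v <;> decide
        · rw [filter_true_of_mem (fun i hi => by simp at hi; omega),
            filter_true_of_mem (fun i hi => by simp at hi; omega)]
          simp; omega)
      have h2 := hfac {1, 2, 3, 4} (fun i hi => by simp at hi; omega)
      simp at h1 h2
      have := hN 1; have := hL 2; have := hN 3
      simp only [pow_one] at *
      omega
    · rw [if_neg hT, if_neg hT]
      have h1 := hsum {1} ∅ (fun v => by
        rcases Nat.eq_zero_or_pos v with rfl | hv
        · decide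
        · simp [filter_singleton, if_pos (show 1 ≤ v by omega)]; omega)
      have h2 := hfac {1} (fun i hi => by simp at hi; omega)
      simp at h1 h2
      have := hN 1
      simp only [pow_one] at *
      omega
where
  le_card_multiples {d : ℕ} {n k : ℕ} (hk : k ≤ n) :
      k / d ≤ #((Ioc (n - k) n).filter (d ∣ ·)) := by
    have h := congrArg (fun S : Finset ℕ => #(S.filter (d ∣ ·)))
      (Ioc_union_Ioc_eq_Ioc (Nat.zero_le (n - k)) (Nat.sub_le n k))
    simp only [filter_union] at h
    rw [card_union_of_disjoint (disjoint_filter_filter (Ioc_disjoint_Ioc_of_le le_rfl)),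
      Ioc_filter_dvd_card_eq_div, Ioc_filter_dvd_card_eq_div] at h
    have : (n - k) / d + k / d ≤ (n - k + k) / d := Nat.div_add_div_le_add_div
    rw [Nat.sub_add_cancel hk] at this
    omega

theorem factorization_prod_pow {s : Finset ℕ} (hs : ∀ q ∈ s, q.Prime) (g : ℕ → ℕ) (p : ℕ) :
    (∏ q ∈ s, q ^ g q).factorization p = if p ∈ s then g p else 0 := by
  rw [Nat.factorization_prod_apply fun q hq => pow_ne_zero _ (hs q hq).ne_zero,
    sum_congr rfl fun q hq => by
      rw [(hs q hq).factorization_pow, Finsupp.single_apply]]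
  simp [eq_comm]

/-- The large range. -/
theorem false_of_ge {n k m : ℕ} (hk : 760 ≤ k) (hkn : k ≤ n) (h2 : k * k ≤ n)
    (h : n.descFactorial k = m ^ 2) : False := by
  have hinj := freePart_injOn (n := n) (k := k) (by omega) le_rfl h2
  have hne : ∀ x ∈ Ioc (n - k) n, freePart 2 x ≠ 0 := fun x hx =>
    freePart_ne_zero (descFactorial_ne_zero hx)
  obtain ⟨C, hC⟩ : ∃ C, C = ∏ q ∈ savingPrimes, q ^ (if q = 2 then 2 else 1) := ⟨_, rfl⟩
  obtain ⟨W, hW⟩ : ∃ W, W = ∏ q ∈ savingPrimes, q ^ saving k q := ⟨_, rfl⟩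
  have hC0 : C ≠ 0 := hC ▸ prod_ne_zero_iff.2 fun q hq =>
    pow_ne_zero _ (savingPrimes_prime q hq).1.ne_zero
  have hW0 : W ≠ 0 := hW ▸ prod_ne_zero_iff.2 fun q hq =>
    pow_ne_zero _ (savingPrimes_prime q hq).1.ne_zero
  have hP0 : ∏ x ∈ Ioc (n - k) n, freePart 2 x ≠ 0 := prod_ne_zero_iff.2 hne
  have hdvd : (∏ x ∈ Ioc (n - k) n, freePart 2 x) * W ∣ k ! * primorial k * C := by
    refine (Nat.factorization_le_iff_dvd (mul_ne_zero hP0 hW0)
      (mul_ne_zero (mul_ne_zero (factorial_ne_zero k) (primorial_ne_zero k)) hC0)).1 fun p => ?_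
    rw [Nat.factorization_mul hP0 hW0, Finsupp.add_apply,
      Nat.factorization_mul (mul_ne_zero (factorial_ne_zero k) (primorial_ne_zero k)) hC0,
      Nat.factorization_mul (factorial_ne_zero k) (primorial_ne_zero k), Finsupp.add_apply,
      Finsupp.add_apply, hW, hC,
      factorization_prod_pow (fun q hq => (savingPrimes_prime q hq).1),
      factorization_prod_pow (fun q hq => (savingPrimes_prime q hq).1),
      Nat.factorization_prod_apply hne]
    simp only [factorization_freePart]
    by_cases hp : p.Prime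
    swap
    · have hnT : p ∉ savingPrimes := fun hT => hp (savingPrimes_prime p hT).1
      simp [hnT, Nat.factorization_eq_zero_of_not_prime _ hp]
    have hprim : (primorial k).factorization p = if p ≤ k then 1 else 0 := by
      rw [primorial, show (∏ q ∈ range (k + 1) with q.Prime, q) =
        ∏ q ∈ (range (k + 1)).filter Nat.Prime, q ^ (fun _ => 1) q by simp,
        factorization_prod_pow fun q hq => (mem_filter.1 hq).2]
      simp [hp]
    rw [hprim]
    by_cases hpk : p ≤ k
    · rw [if_pos hpk]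
      exact exponent_bound hkn hp
    · have hnT : p ∉ savingPrimes := fun hT => hpk (le_trans (savingPrimes_prime p hT).2 (by omega))
      rw [if_neg hnT, if_neg hnT, if_neg hpk]
      refine le_trans (le_of_eq ?_) (Nat.zero_le _)
      rw [add_zero, sum_eq_zero_iff]
      intro x hx
      rw [← factorization_freePart]
      exact Nat.factorization_eq_zero_of_not_dvd fun hd =>
        hpk (prime_lt_of_dvd_freePart hkn h hx hp hd).le
  have hle := Nat.le_of_dvd (Nat.pos_of_ne_zero
    (mul_ne_zero (mul_ne_zero (factorial_ne_zero k) (primorial_ne_zero k)) hC0)) hdvd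
  have hcard : #((Ioc (n - k) n).image (freePart 2)) = k := by
    rw [Finset.card_image_of_injOn hinj, Nat.card_Ioc]; omega
  have hlow := pow_card_le_prod ((Ioc (n - k) n).image (freePart 2)) (fun a ha => by
    obtain ⟨x, hx, rfl⟩ := mem_image.1 ha
    have hsq := squarefree_freePart (descFactorial_ne_zero hx)
    exact ⟨mod_ne_zero hsq (p := 2) (by norm_num), mod_ne_zero hsq (p := 3) (by norm_num),
      mod_ne_zero hsq (p := 5) (by norm_num)⟩) (by omega)
  rw [hcard, prod_image hinj] at hlow
  have key := saving_lt k hk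
  have hC4 : C = 2 * ∏ p ∈ savingPrimes, p := by rw [hC]; decide
  rw [← hW] at key
  generalize ∏ x ∈ Ioc (n - k) n, freePart 2 x = P at hle hlow
  have hk3 : k * (k - 1) * (k - 2) ≤ k ^ 3 := by
    rw [pow_succ, sq]
    exact Nat.mul_le_mul (Nat.mul_le_mul_left k (Nat.sub_le k 1)) (Nat.sub_le k 2)
  have hbig : 25 ^ k * W * k ! ≤ 64 ^ k * k ^ 3 * C * k ! :=
    calc 25 ^ k * W * k ! = 25 ^ k * k ! * W := by ring
      _ ≤ 16 ^ k * (k * (k - 1) * (k - 2)) * P * W := Nat.mul_le_mul_right _ hlow
      _ = 16 ^ k * (k * (k - 1) * (k - 2)) * (P * W) := by ring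
      _ ≤ 16 ^ k * k ^ 3 * (k ! * 4 ^ k * C) := by
        refine Nat.mul_le_mul (by gcongr) (hle.trans ?_)
        gcongr
        exact primorial_le_four_pow k
      _ = _ := by rw [show (64 : ℕ) = 16 * 4 from rfl, mul_pow]; ring
  have := (Nat.le_of_mul_le_mul_right hbig (factorial_pos k)).trans
    (Nat.mul_le_mul_left _ (show C ≤ 4 * ∏ p ∈ savingPrimes, p by omega))
  omega
where
  mod_ne_zero {a p : ℕ} (ha : Squarefree a) (hp : p.Prime) : a % (p * p) ≠ 0 := fun e =>
    hp.ne_one (Nat.isUnit_iff.1 (ha p (Nat.dvd_of_mod_eq_zero e)))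

/-- **Erdős–Rigge** for at least five terms. -/
theorem descFactorial_ne_sq {n k m : ℕ} (hk : 5 ≤ k) (hkn : k ≤ n) :
    n.descFactorial k ≠ m ^ 2 := fun h => by
  have h2 := sq_le_of_square hk hkn h
  by_cases hbig : 760 ≤ k
  · exact false_of_ge hbig hkn h2 h
  by_cases h6 : k = 6
  · exact false_six_eight (j := 1) (Or.inl ⟨h6, rfl⟩) hkn h2 h
  by_cases h8 : k = 8
  · exact false_six_eight (j := 2) (Or.inr ⟨h8, rfl⟩) hkn h2 h
  exact false_of_lt hk (by omega) h6 h8 hkn h2 h

end FA.Erdos

end
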