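import Fermat.Agent.Erdos.SylvesterSchur
import Mathlib.NumberTheory.Padics.Complex
import Mathlib.RingTheory.Polynomial.GaussLemma
import Mathlib.Algebra.Field.ZMod

/-!
# Schur: the truncated exponentials are irreducible

`∑ j ≤ n, (n! / j!) X ^ j` has no monic factor of degree `k ≤ n / 2`: by Sylvester–Schur a prime
`p > k` divides one of `n, …, n - k + 1`, so the constant term of such a factor, so one of its roots
in an algebraic closure of `ℚ_p` is too small to be a root of the whole.
-/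

set_option autoImplicit false

noncomputable section

namespace FA.SchurExp

open Finset Nat Polynomial

/-- `n ! ∑ j ≤ n, X ^ j / j !`. -/
def expPoly (n : ℕ) : ℤ[X] :=
  ∑ j ∈ Finset.range (n + 1), Polynomial.C (n.descFactorial (n - j) : ℤ) * X ^ j

theorem coeff_expPoly (n j : ℕ) :
    (expPoly n).coeff j = if j ≤ n then (n.descFactorial (n - j) : ℤ) else 0 := by
  simp only [expPoly, finsetSum_coeff, coeff_C_mul, coeff_X_pow, mul_ite, mul_one, mul_zero,
    sum_ite_eq, Finset.mem_range, Nat.lt_succ_iff]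

theorem natDegree_expPoly (n : ℕ) : (expPoly n).natDegree = n := by
  refine natDegree_eq_of_le_of_coeff_ne_zero (natDegree_le_iff_coeff_eq_zero.2 fun j hj => ?_) ?_
  · rw [coeff_expPoly, if_neg (by omega)]
  · simp [coeff_expPoly]

theorem monic_expPoly (n : ℕ) : (expPoly n).Monic := by
  rw [Polynomial.Monic, leadingCoeff, natDegree_expPoly, coeff_expPoly, if_pos le_rfl, Nat.sub_self,
    descFactorial_zero, Nat.cast_one]

/-- The norm of a natural number. -/
theorem norm_natCast_eq (p : ℕ) [hp : Fact p.Prime] {m : ℕ} (hm : m ≠ 0) :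
    ‖(m : PadicAlgCl p)‖ = ((p : ℝ)⁻¹) ^ padicValNat p m := by
  have e : ‖(m : PadicAlgCl p)‖ = ‖(m : ℚ_[p])‖ := by
    rw [← map_natCast (algebraMap ℚ_[p] (PadicAlgCl p)) m]
    exact PadicAlgCl.norm_extends p (m : ℚ_[p])
  obtain ⟨t, ht⟩ := @pow_padicValNat_dvd p m
  have hcop : Nat.Coprime p t := (hp.out.coprime_iff_not_dvd).2 fun hd => by
    refine pow_succ_padicValNat_not_dvd (p := p) hm ?_
    rw [pow_succ]
    conv_rhs => rw [ht]
    exact Nat.mul_dvd_mul_left _ hd
  rw [e]
  conv_lhs => rw [ht]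
  rw [Nat.cast_mul, Nat.cast_pow, norm_mul, norm_pow, Padic.norm_p,
    Padic.norm_natCast_eq_one_iff.2 hcop, mul_one]

theorem pow_card_le_prod_real {r : ℝ} (hr : 0 ≤ r) : ∀ s : Multiset ℝ, (∀ x ∈ s, r ≤ x) →
    r ^ Multiset.card s ≤ s.prod := by
  intro s
  induction s using Multiset.induction with
  | empty => simp
  | cons a s ih =>
    intro hs
    rw [Multiset.card_cons, _root_.pow_succ', Multiset.prod_cons]
    exact mul_le_mul (hs a (Multiset.mem_cons_self a s))
      (ih fun x hx => hs x (Multiset.mem_cons_of_mem hx)) (by positivity)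
      (hr.trans (hs a (Multiset.mem_cons_self a s)))

/-- A monic polynomial with constant term divisible by `p` has a small root. -/
theorem exists_small_root (p : ℕ) [Fact p.Prime] {g : ℤ[X]} (hg : g.Monic) (hd : 1 ≤ g.natDegree)
    (h0 : (p : ℤ) ∣ g.coeff 0) :
    ∃ β : PadicAlgCl p, (g.map (Int.castRingHom (PadicAlgCl p))).IsRoot β ∧
      ‖β‖ ^ g.natDegree ≤ (p : ℝ)⁻¹ := by
  set L := PadicAlgCl p
  set G := g.map (Int.castRingHom L) with hG
  have hs : G.Splits := IsAlgClosed.splits G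
  have hcard : Multiset.card G.roots = g.natDegree := by
    rw [← hs.natDegree_eq_card_roots, hG, hg.natDegree_map]
  have hne : (G.roots.map fun x => ‖x‖) ≠ 0 := fun e => by
    rw [Multiset.map_eq_zero] at e
    rw [e, Multiset.card_zero] at hcard
    omega
  obtain ⟨r, hr, hmin⟩ : ∃ r ∈ G.roots.map (fun x => ‖x‖), ∀ s ∈ G.roots.map (fun x => ‖x‖),
      r ≤ s := by
    obtain ⟨r, hr, h⟩ := (G.roots.map fun x => ‖x‖).toFinset.exists_min_image id
      (Multiset.toFinset_nonempty.2 hne)
    exact ⟨r, Multiset.mem_toFinset.1 hr, fun s hs' => h s (Multiset.mem_toFinset.2 hs')⟩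
  obtain ⟨β, hβ, rfl⟩ := Multiset.mem_map.1 hr
  refine ⟨β, isRoot_of_mem_roots hβ, ?_⟩
  have hprod := pow_card_le_prod_real (norm_nonneg β) _ hmin
  rw [Multiset.card_map, hcard] at hprod
  refine hprod.trans ?_
  have e : ‖G.coeff 0‖ = (G.roots.map fun x => ‖x‖).prod := by
    rw [hs.coeff_zero_eq_prod_roots_of_monic (hg.map _), norm_mul, norm_pow, norm_neg, norm_one,
      one_pow, one_mul]
    exact map_multiset_prod (normHom : L →*₀ ℝ) _
  rw [← e, hG, coeff_map]
  obtain ⟨c, hc⟩ := h0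
  rw [hc, map_mul, norm_mul, eq_intCast, eq_intCast, Int.cast_natCast,
    norm_natCast_eq p (Fact.out (p := p.Prime)).ne_zero, padicValNat.self
      (Fact.out (p := p.Prime)).one_lt, pow_one]
  exact mul_le_of_le_one_right (by positivity) (IsUltrametricDist.norm_intCast_le_one L c)

/-- A small root is no root of the truncated exponential. -/
theorem not_isRoot_of_small (p : ℕ) [hp : Fact p.Prime] {n k : ℕ} (hn : 1 ≤ n) (hk : 1 ≤ k)
    (hkp : k < p) {β : PadicAlgCl p} (hβ : ‖β‖ ^ k ≤ (p : ℝ)⁻¹) :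
    ¬((expPoly n).map (Int.castRingHom (PadicAlgCl p))).IsRoot β := fun h => by
  rw [IsRoot.def, expPoly, Polynomial.map_sum, eval_finsetSum] at h
  simp only [Polynomial.map_mul, Polynomial.map_natCast, eval_natCast, Polynomial.map_pow, map_X,
    eval_mul, eval_pow, eval_X, map_natCast] at h
  rw [← Finset.add_sum_erase _ _ (Finset.mem_range.2 (by omega : 0 < n + 1)), pow_zero, mul_one,
    Nat.sub_zero, descFactorial_self, add_eq_zero_iff_eq_neg] at h
  obtain ⟨j, hj, hle⟩ := IsUltrametricDist.exists_norm_finsetSum_le_of_nonempty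
    (show ((Finset.range (n + 1)).erase 0).Nonempty from
      ⟨1, Finset.mem_erase.2 ⟨one_ne_zero, Finset.mem_range.2 (by omega)⟩⟩)
    fun i => (n.descFactorial (n - i) : PadicAlgCl p) * β ^ i
  rw [← norm_neg, ← h, norm_mul, norm_pow] at hle
  obtain ⟨hj0, hjn⟩ := Finset.mem_erase.1 hj
  rw [Finset.mem_range] at hjn
  have hfac := Nat.factorial_mul_descFactorial (Nat.sub_le n j)
  rw [show n - (n - j) = j by omega] at hfac
  rw [← hfac, Nat.cast_mul, norm_mul, mul_comm ‖((j ! : ℕ) : PadicAlgCl p)‖] at hle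
  have hpos : 0 < ‖((n.descFactorial (n - j) : ℕ) : PadicAlgCl p)‖ :=
    norm_pos_iff.2 (Nat.cast_ne_zero.2 (by rw [Ne, descFactorial_eq_zero_iff_lt]; omega))
  have h1 : ‖((j ! : ℕ) : PadicAlgCl p)‖ ≤ ‖β‖ ^ j := le_of_mul_le_mul_left hle hpos
  rw [norm_natCast_eq p (factorial_ne_zero j)] at h1
  have hv : k * padicValNat p j ! < j := by
    have e := sub_one_mul_padicValNat_factorial (p := p) j
    have hdig : (p.digits j).sum ≠ 0 := fun h0 => by
      rw [List.sum_eq_zero_iff] at h0
      have := Nat.getLast_digit_ne_zero p hj0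
      exact this (h0 _ (List.getLast_mem _))
    have := Nat.mul_le_mul_right (padicValNat p j !) (show k ≤ p - 1 by omega)
    omega
  have hb := (pow_le_pow_left₀ (by positivity) h1 k).trans_eq (pow_right_comm ‖β‖ j k)
  have hb' := hb.trans (pow_le_pow_left₀ (by positivity) hβ j)
  rw [← pow_mul, mul_comm (padicValNat p j !)] at hb'
  have hp1 : (1 : ℝ) < p := by exact_mod_cast hp.out.one_lt
  exact absurd hb' (not_le.2 (pow_lt_pow_right_of_lt_one₀ (by positivity)
    (inv_lt_one_of_one_lt₀ hp1) hv))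

/-- **Schur**: `∑ j ≤ n, (n! / j!) X ^ j` is irreducible. -/
theorem irreducible_expPoly {n : ℕ} (hn : 1 ≤ n) : Irreducible (expPoly n) := by
  have hne : expPoly n ≠ 1 := fun e => by
    have := natDegree_expPoly n
    rw [e, natDegree_one] at this
    omega
  refine ((monic_expPoly n).irreducible_iff_natDegree').2 ⟨hne, fun f g hf hg hfg hdeg => ?_⟩
  rw [Finset.mem_Ioc, natDegree_expPoly] at hdeg
  obtain ⟨k, hk⟩ : ∃ k, g.natDegree = k := ⟨_, rfl⟩
  rw [hk] at hdeg
  obtain ⟨p, hp, hpk, hpd⟩ := FA.Erdos.exists_prime_gt_dvd_choose (n := n) (k := k) hdeg.1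
    (by omega)
  have : Fact p.Prime := ⟨hp⟩
  obtain ⟨x, hx, hxd⟩ := hp.prime.exists_mem_finset_dvd (s := Finset.Ioc (n - k) n)
    (f := fun y => y) (by
      rw [← FA.Erdos.descFactorial_eq_prod_Ioc (show k ≤ n by omega),
        descFactorial_eq_factorial_mul_choose]
      exact hpd.mul_left _)
  obtain ⟨hx1, hx2⟩ := Finset.mem_Ioc.1 hx
  -- modulo `p` the polynomial is divisible by `X ^ x`
  set red := Int.castRingHom (ZMod p)
  have hX : (X : (ZMod p)[X]) ^ x ∣ f.map red * g.map red := by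
    rw [← Polynomial.map_mul, hfg, X_pow_dvd_iff]
    intro j hj
    rw [coeff_map, coeff_expPoly, if_pos (by omega), map_natCast, ZMod.natCast_eq_zero_iff,
      FA.Erdos.descFactorial_eq_prod_Ioc (Nat.sub_le n j)]
    exact hxd.trans (dvd_prod_of_mem _ (Finset.mem_Ioc.2 ⟨by omega, hx2⟩))
  have hg0 : (p : ℤ) ∣ g.coeff 0 := by
    by_contra hcon
    have hcop : ¬(X : (ZMod p)[X]) ∣ g.map red := by
      rwa [X_dvd_iff, coeff_map, eq_intCast, ZMod.intCast_zmod_eq_zero_iff_dvd]
    have hd := Polynomial.natDegree_le_of_dvd (Prime.pow_dvd_of_dvd_mul_right prime_X x hcop hX)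
      (hf.map red).ne_zero
    rw [natDegree_X_pow, hf.natDegree_map] at hd
    have := hf.natDegree_mul hg
    rw [hfg, natDegree_expPoly] at this
    omega
  obtain ⟨β, hroot, hβ⟩ := exists_small_root p hg (by omega) hg0
  rw [hk] at hβ
  refine not_isRoot_of_small p hn hdeg.1 hpk hβ ?_
  rw [← hfg, Polynomial.map_mul]
  exact root_mul_left_of_isRoot _ hroot

end FA.SchurExp

end
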