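import Fermat.Agent.Erdos.SquareCertificates
import Mathlib.NumberTheory.Bertrand
import Mathlib.NumberTheory.Primorial

/-!
# A perfect power product of `k` consecutive numbers lies above `k ^ 2`

Sylvester's theorem in the form needed for the theorem of Erdős and Rigge: if
`n (n - 1) ⋯ (n - k + 1)` is a perfect power and `5 ≤ k ≤ n`, then `k * k ≤ n`.
-/

set_option autoImplicit false

noncomputable section

namespace FA.Erdos

open Finset Nat

/-- Among thirty consecutive numbers at most eight are primes above `5`. -/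
theorem primesUpTo_add_thirty {s : ℕ} (hs : 5 ≤ s) : primesUpTo (s + 30) ≤ primesUpTo s + 8 := by
  unfold primesUpTo
  have hsub : (range (s + 30 + 1)).filter Nat.Prime ⊆
      (range (s + 1)).filter Nat.Prime ∪ (Ico (s + 1) (s + 1 + 30)).filter (Nat.Coprime 30) := by
    intro p hp
    simp only [mem_union, mem_filter, mem_range, mem_Ico] at hp ⊢
    by_cases h : p < s + 1
    · exact Or.inl ⟨h, hp.2⟩
    · refine Or.inr ⟨⟨by omega, by omega⟩, (hp.2.coprime_iff_not_dvd.2 fun hd => ?_).symm⟩
      have := Nat.le_of_dvd (by norm_num) hd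
      have hp' := hp.2
      interval_cases p <;> first | omega | norm_num at hp'
  have h8 : #((Ico (s + 1) (s + 1 + 30)).filter (Nat.Coprime 30)) = 8 := by
    rw [Nat.filter_coprime_Ico_eq_totient]
    decide
  have := (card_le_card hsub).trans (card_union_le _ _)
  omega

theorem three_mul_primesUpTo_le : ∀ s, 33 ≤ s → 3 * primesUpTo s ≤ s := by
  intro s
  induction s using Nat.strongRecOn with
  | ind s ih =>
    intro hs
    by_cases h : s < 63
    · have base : ∀ t < 63, 33 ≤ t → 3 * primesUpTo t ≤ t := by decide +kernel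
      exact base s h hs
    · obtain ⟨t, rfl⟩ : ∃ t, s = t + 30 := ⟨s - 30, by omega⟩
      have := primesUpTo_add_thirty (s := t) (by omega)
      have := ih t (by omega) (by omega)
      omega

/-- A prime dividing exactly one of the numbers, once, excludes perfect powers. -/
theorem false_of_single {n k m l q x : ℕ} (hl : 2 ≤ l) (hkn : k ≤ n)
    (h : n.descFactorial k = m ^ l)
    (hq : q.Prime) (hx : n - k < x) (hx' : x ≤ n) (hd : q ∣ x) (hsq : n < q * q)
    (hone : ∀ y, n - k < y → y ≤ n → q ∣ y → y = x) : False := by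
  have hS : ∀ y ∈ Ioc (n - k) n, y ≠ 0 := fun y hy => by have := mem_Ioc.1 hy; omega
  have e := congrArg (fun v : ℕ => v.factorization q) h
  simp only [descFactorial_eq_prod_Ioc hkn, Nat.factorization_prod_apply hS, Nat.factorization_pow,
    Finsupp.smul_apply, smul_eq_mul] at e
  rw [sum_eq_single x (fun y hy hne => ?_) (fun hxs => absurd (mem_Ioc.2 ⟨hx, hx'⟩) hxs)] at e
  · have h1 := hq.factorization_pos_of_dvd (show x ≠ 0 by omega) hd
    have h2 : ¬ q ^ 2 ∣ x := fun h2 => by
      have := Nat.le_of_dvd (show 0 < x by omega) h2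
      rw [sq] at this
      omega
    rw [hq.pow_dvd_iff_le_factorization (show x ≠ 0 by omega)] at h2
    have := Nat.eq_one_of_mul_eq_one_right (show l * m.factorization q = 1 by omega)
    omega
  · exact Nat.factorization_eq_zero_of_not_dvd fun hd' =>
      hne (hone y (mem_Ioc.1 hy).1 (mem_Ioc.1 hy).2 hd')

/-- A prime at least `k` has at most one multiple among `k` consecutive numbers. -/
theorem multiple_unique {n k q x y : ℕ} (hq : k ≤ q) (hx : n - k < x) (hx' : x ≤ n)
    (hy : n - k < y) (hy' : y ≤ n) (hdx : q ∣ x) (hdy : q ∣ y) : y = x := by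
  rcases Nat.lt_trichotomy x y with h | h | h
  · have := Nat.le_of_dvd (by omega) (Nat.dvd_sub hdy hdx); omega
  · exact h.symm
  · have := Nat.le_of_dvd (by omega) (Nat.dvd_sub hdx hdy); omega

/-- All primes of `n.choose k` are at most `k` when `n < k ^ 2`. -/
theorem prime_le_of_square {n k m l p : ℕ} (hl : 2 ≤ l) (hkn : k ≤ n) (hn : n < k * k)
    (h : n.descFactorial k = m ^ l) (hp : p.Prime) (hd : p ∣ n.choose k) : p ≤ k := by
  by_contra hk
  have hd' : p ∣ n.descFactorial k := by
    rw [descFactorial_eq_factorial_mul_choose]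
    exact hd.mul_left _
  rw [descFactorial_eq_prod_Ioc hkn] at hd'
  obtain ⟨x, hx, hdx⟩ := hp.prime.exists_mem_finset_dvd hd'
  obtain ⟨hx1, hx2⟩ := mem_Ioc.1 hx
  refine false_of_single hl hkn h hp hx1 hx2 hdx ?_ fun y hy hy' hdy =>
    multiple_unique (by omega) hx1 hx2 hy hy' hdx hdy
  have := Nat.mul_le_mul (not_le.1 hk).le (not_le.1 hk).le
  omega

/-- `n ^ 2 < k ^ 3`. -/
theorem sq_lt_cube {n k : ℕ} (hk : 33 ≤ k) (hkn : 2 * k ≤ n)
    (hle : ∀ p, p.Prime → p ∣ n.choose k → p ≤ k) : n ^ 2 < k ^ 3 := by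
  by_contra hc
  have hC := choose_le_pow_primesUpTo (by omega) (by omega) hle
  have hlo := pow_lt_pow_mul_choose (n := n) (k := k) (by omega) (by omega)
  have hP := three_mul_primesUpTo_le k hk
  obtain ⟨e, he⟩ : ∃ e, e + primesUpTo k = k := ⟨k - primesUpTo k, by omega⟩
  have h1 : n ^ k < k ^ k * n ^ primesUpTo k :=
    hlo.trans_le (Nat.mul_le_mul_left _ hC)
  have h2 : k ^ k ≤ n ^ e := by
    refine (Nat.pow_le_pow_iff_left (show 2 ≠ 0 by norm_num)).1 ?_
    calc (k ^ k) ^ 2 = k ^ (2 * k) := by rw [← pow_mul, mul_comm]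
      _ ≤ k ^ (3 * e) := Nat.pow_le_pow_right (by omega) (by omega)
      _ = (k ^ 3) ^ e := by rw [pow_mul]
      _ ≤ (n ^ 2) ^ e := Nat.pow_le_pow_left (not_lt.1 hc) e
      _ = (n ^ e) ^ 2 := by rw [← pow_mul, ← pow_mul, mul_comm]
  have := Nat.mul_le_mul_right (n ^ primesUpTo k) h2
  rw [← pow_add, he] at this
  omega

/-- `n.choose k ≤ n ^ π(s) · 4 ^ M`. -/
theorem choose_le_split {n k s M : ℕ} (hn : 0 < n) (hkn : k ≤ n) (hs : n < (s + 1) * (s + 1))
    (h : ∀ p, p.Prime → s < p → p ∣ n.choose k → p ≤ M) :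
    n.choose k ≤ n ^ primesUpTo s * 4 ^ M := by
  have h0 : n.choose k ≠ 0 := (Nat.choose_pos hkn).ne'
  conv_lhs => rw [← Nat.prod_factorization_pow_eq_self h0]
  rw [Finsupp.prod, ← prod_filter_mul_prod_filter_not _ (fun p => p ≤ s)]
  have mem : ∀ p, p ∈ (n.choose k).factorization.support → p.Prime ∧ p ∣ n.choose k :=
    fun p hp => by
      rw [Nat.support_factorization, Nat.mem_primeFactors] at hp
      exact ⟨hp.1, hp.2.1⟩
  refine Nat.mul_le_mul ?_ ?_
  · refine le_trans (Finset.prod_le_pow_card _ _ n fun p _ => pow_factorization_choose_le hn) ?_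
    refine Nat.pow_le_pow_right hn (card_le_card fun p hp => ?_)
    rw [mem_filter] at hp
    exact mem_filter.2 ⟨mem_range.2 (Nat.lt_succ_of_le hp.2), (mem p hp.1).1⟩
  · refine le_trans ?_ (primorial_le_four_pow M)
    refine le_trans (le_of_eq (prod_congr rfl fun p hp => ?_))
      (prod_le_prod_of_subset_of_one_le' (f := fun p => p) (fun p hp => ?_)
        fun p hp _ => (mem_filter.1 hp).2.one_lt.le)
    · rw [mem_filter, not_le] at hp
      have hlarge : n < p ^ 2 := by
        have := Nat.mul_le_mul (Nat.succ_le_of_lt hp.2) (Nat.succ_le_of_lt hp.2)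
        rw [sq]
        simp only [Nat.succ_eq_add_one] at this
        omega
      have h1 := factorization_choose_le_one (k := k) hlarge
      have h2 := (mem p hp.1).1.factorization_pos_of_dvd h0 (mem p hp.1).2
      rw [show (n.choose k).factorization p = 1 by omega, pow_one]
    · rw [mem_filter, not_le] at hp
      exact mem_filter.2 ⟨mem_range.2 (Nat.lt_succ_of_le
        (h p (mem p hp.1).1 hp.2 (mem p hp.1).2)), (mem p hp.1).1⟩

theorem three_pow_mul_choose_le {k : ℕ} : ∀ j, j ≤ k →
    3 ^ j * (2 * k).choose k ≤ 2 ^ j * (2 * k + j).choose k := by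
  intro j
  induction j with
  | zero => simp
  | succ j ih =>
    intro hj
    have e := choose_mul_succ_eq (2 * k + j) k
    have h' := ih (by omega)
    refine Nat.le_of_mul_le_mul_right (c := 2 * k + j + 1 - k) ?_ (by omega)
    rw [mul_assoc (2 ^ (j + 1)), show 2 * k + (j + 1) = 2 * k + j + 1 by ring, ← e, pow_succ,
      pow_succ]
    have h32 : 3 * (2 * k + j + 1 - k) ≤ 2 * (2 * k + j + 1) := by omega
    calc 3 ^ j * 3 * (2 * k).choose k * (2 * k + j + 1 - k)
        = 3 ^ j * (2 * k).choose k * (3 * (2 * k + j + 1 - k)) := by ring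
      _ ≤ 2 ^ j * (2 * k + j).choose k * (2 * (2 * k + j + 1)) := Nat.mul_le_mul h' h32
      _ = _ := by ring

theorem cube_succ_le_two_pow : ∀ {q : ℕ}, 11 ≤ q → (q + 1) ^ 3 ≤ 2 ^ q := by
  intro q hq
  induction q, hq using Nat.le_induction with
  | base => norm_num
  | succ q hq ih =>
    rw [pow_succ 2]
    nlinarith [Nat.mul_le_mul hq hq, Nat.mul_le_mul_left (q * q) hq]

theorem mul_succ_le_two_pow : ∀ {r : ℕ}, 9 ≤ r → 32 * (r + 1) ≤ 2 ^ r := by
  intro r hr
  induction r, hr using Nat.le_induction with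
  | base => norm_num
  | succ r hr ih => rw [pow_succ 2]; omega

/-- Sylvester's theorem for large lengths below `k ^ 2`. -/
theorem false_large {n k : ℕ} (hk : 16384 ≤ k) (hkn : 2 * k ≤ n) (hn : n < k * k)
    (hle : ∀ p, p.Prime → p ∣ n.choose k → p ≤ k) : False := by
  obtain ⟨s, hs1, hs2⟩ : ∃ s, s * s ≤ n ∧ n < (s + 1) * (s + 1) :=
    ⟨Nat.sqrt n, Nat.sqrt_le n, Nat.lt_succ_sqrt n⟩
  have hs33 : 33 ≤ s := by nlinarith
  have hP := three_mul_primesUpTo_le s hs33
  obtain ⟨e, he⟩ : ∃ e, primesUpTo s = e := ⟨_, rfl⟩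
  rw [he] at hP
  have hupper : ∀ M, (∀ p, p.Prime → s < p → p ∣ n.choose k → p ≤ M) → ∀ r, s + 1 ≤ 2 ^ r →
      n.choose k ≤ 2 ^ (2 * r * e) * 4 ^ M := fun M hM r hr => by
    refine (choose_le_split (by omega) (by omega) hs2 hM).trans (Nat.mul_le_mul_right _ ?_)
    rw [he, pow_mul]
    refine Nat.pow_le_pow_left (hs2.le.trans ?_) e
    rw [mul_comm 2 r, pow_mul, sq]
    exact Nat.mul_le_mul hr hr
  by_cases h8 : 8 * k ≤ n
  · -- `k ^ k * n.choose k > n ^ k ≥ (8 k) ^ k`
    have h3 := sq_lt_cube (by omega) hkn hle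
    have hs4 : s ^ 4 < k ^ 3 :=
      lt_of_le_of_lt (by rw [show s ^ 4 = (s * s) ^ 2 by ring]; exact Nat.pow_le_pow_left hs1 2) h3
    obtain ⟨q, hq1, hq2⟩ : ∃ q, q * s ≤ k ∧ k < (q + 1) * s :=
      ⟨k / s, Nat.div_mul_le_self k s, by
        rw [mul_comm]; exact Nat.lt_mul_div_succ k (by omega)⟩
    have hq : 11 ≤ q := by
      by_contra hc
      have h4 : k ^ 4 < 11 ^ 4 * k ^ 3 := by
        have := Nat.pow_lt_pow_left
          (hq2.trans_le (Nat.mul_le_mul_right s (show q + 1 ≤ 11 by omega)))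
          (show 4 ≠ 0 by norm_num)
        rw [mul_pow] at this
        exact this.trans (Nat.mul_lt_mul_of_pos_left hs4 (by norm_num))
      rw [pow_succ' k 3] at h4
      have := Nat.lt_of_mul_lt_mul_right h4
      omega
    have hsq : s + 1 ≤ 2 ^ q := by
      refine le_trans ?_ (cube_succ_le_two_pow hq)
      have := hs4.trans (Nat.pow_lt_pow_left hq2 (show 3 ≠ 0 by norm_num))
      rw [mul_pow, pow_succ' s 3] at this
      exact Nat.lt_of_mul_lt_mul_right this
    have hC := hupper k (fun p hp _ hd => hle p hp hd) q hsq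
    have hE : 2 * q * e ≤ k := by
      have := Nat.mul_le_mul_left q hP
      nlinarith
    have hlo := pow_lt_pow_mul_choose (n := n) (k := k) (by omega) (by omega)
    have h88 : n.choose k ≤ 8 ^ k := by
      refine hC.trans ?_
      rw [show (8 : ℕ) ^ k = 2 ^ k * 4 ^ k by rw [← mul_pow]; rfl]
      exact Nat.mul_le_mul_right _ (Nat.pow_le_pow_right two_pos hE)
    have := Nat.pow_le_pow_left h8 k
    rw [mul_pow] at this
    have := Nat.mul_le_mul_left (k ^ k) h88
    rw [mul_comm (8 ^ k)] at *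
    omega
  · obtain ⟨r, hr1, hr2⟩ : ∃ r, 4 * s * r ≤ k ∧ k < 4 * s * (r + 1) :=
      ⟨k / (4 * s), Nat.mul_div_le k (4 * s), Nat.lt_mul_div_succ k (by omega)⟩
    have hr : 9 ≤ r := by
      by_contra hc
      have hk36 : k < 36 * s :=
        hr2.trans_le (le_trans (Nat.mul_le_mul_left _ (show r + 1 ≤ 9 by omega)) (by omega))
      have := Nat.mul_lt_mul_of_lt_of_lt hk36 hk36
      nlinarith
    have hsr : s + 1 ≤ 2 ^ r := by
      refine le_trans ?_ (mul_succ_le_two_pow hr)
      by_contra hc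
      have := Nat.mul_le_mul_left s (not_le.1 hc).le
      nlinarith
    have hE : 6 * (2 * r * e) ≤ k := by
      have := Nat.mul_le_mul_left r hP
      nlinarith
    obtain ⟨E, hE'⟩ : ∃ E, 2 * r * e = E := ⟨_, rfl⟩
    rw [hE'] at hE
    have ht : 2 * k ≤ 2 ^ (k / 6) := by
      have := mul_succ_le_two_pow (r := k / 6) (by omega)
      omega
    have hc4 := four_pow_le_two_mul_self_mul_centralBinom k (by omega)
    rw [centralBinom_eq_two_mul_choose] at hc4
    rcases Nat.lt_or_ge n (3 * k) with h3 | h3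
    · obtain ⟨j, rfl⟩ : ∃ j, n = 2 * k + j := ⟨n - 2 * k, by omega⟩
      have hC := hupper ((2 * k + j) / 3) (fun p hp hps hd => by
        by_contra hlt
        have h2 : p ≠ 2 := by omega
        have := factorization_choose_of_lt_three_mul (n := 2 * k + j) (k := k) h2 (hle p hp hd)
          (by have := hle p hp hd; omega) (by omega)
        have := hp.factorization_pos_of_dvd (Nat.choose_pos (by omega)).ne' hd
        omega) r hsr
      rw [hE'] at hC
      obtain ⟨M, hM⟩ : ∃ M, (2 * k + j) / 3 = M := ⟨_, rfl⟩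
      rw [hM] at hC
      have key : 4 ^ k * 3 ^ j ≤ 2 ^ (k / 6 + E + j + 2 * M) :=
        calc 4 ^ k * 3 ^ j ≤ 2 * k * (2 * k).choose k * 3 ^ j := Nat.mul_le_mul_right _ hc4
          _ = 2 * k * (3 ^ j * (2 * k).choose k) := by ring
          _ ≤ 2 ^ (k / 6) * (2 ^ j * (2 * k + j).choose k) :=
            Nat.mul_le_mul ht (three_pow_mul_choose_le j (by omega))
          _ ≤ 2 ^ (k / 6) * (2 ^ j * (2 ^ E * 4 ^ M)) := by gcongr
          _ = _ := by
            rw [show (4 : ℕ) = 2 ^ 2 from rfl, ← pow_mul, ← pow_add, ← pow_add, ← pow_add]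
            congr 1; ring
      have key3 := Nat.pow_le_pow_left key 3
      rw [← pow_mul] at key3
      have h5 := key3.trans (Nat.pow_le_pow_right two_pos
        (show (k / 6 + E + j + 2 * M) * 3 ≤ 5 * k + 5 * j by omega))
      have e1 : (4 ^ k * 3 ^ j) ^ 3 = 2 ^ (5 * k) * (2 ^ k * 27 ^ j) := by
        rw [mul_pow, ← pow_mul 3, mul_comm j 3, pow_mul, show (4 : ℕ) = 2 ^ 2 from rfl, ← pow_mul,
          ← pow_mul, show 2 * (k * 3) = 5 * k + k by ring, pow_add, mul_assoc]
        norm_num
      rw [e1, pow_add, pow_mul 2 5 j] at h5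
      have h6 := Nat.le_of_mul_le_mul_left h5 (by positivity)
      rcases Nat.eq_zero_or_pos j with rfl | hj
      · have := Nat.lt_two_pow_self (n := k)
        simp at h6
        omega
      · have h7 : 27 ^ j * 2 ^ j ≤ 2 ^ k * 27 ^ j := by
          rw [mul_comm (2 ^ k)]
          exact Nat.mul_le_mul_left _ (Nat.pow_le_pow_right two_pos (by omega))
        rw [← mul_pow] at h7
        have h8' := Nat.pow_lt_pow_left (show 2 ^ 5 < 27 * 2 by norm_num) hj.ne'
        omega
    · have hC := hupper k (fun p hp _ hd => hle p hp hd) r hsr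
      rw [hE'] at hC
      have hmono : (2 * k + k).choose k ≤ n.choose k := Nat.choose_le_choose k (by omega)
      have key : 4 ^ k * 3 ^ k ≤ 4 ^ k * 2 ^ (k / 6 + E + k) :=
        calc 4 ^ k * 3 ^ k ≤ 2 * k * (2 * k).choose k * 3 ^ k := Nat.mul_le_mul_right _ hc4
          _ = 2 * k * (3 ^ k * (2 * k).choose k) := by ring
          _ ≤ 2 ^ (k / 6) * (2 ^ k * (2 * k + k).choose k) :=
            Nat.mul_le_mul ht (three_pow_mul_choose_le k le_rfl)
          _ ≤ 2 ^ (k / 6) * (2 ^ k * (2 ^ E * 4 ^ k)) := by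
            gcongr; exact hmono.trans hC
          _ = _ := by ring
      have key' := Nat.le_of_mul_le_mul_left key (by positivity)
      have key3 := Nat.pow_le_pow_left key' 3
      rw [← pow_mul, ← pow_mul] at key3
      have h5 := key3.trans (Nat.pow_le_pow_right two_pos
        (show (k / 6 + E + k) * 3 ≤ 4 * k by omega))
      rw [mul_comm k 3, pow_mul, pow_mul] at h5
      exact absurd h5 (not_le.2 (Nat.pow_lt_pow_left (by norm_num) (by omega)))

/-- **Sylvester's theorem** for perfect power products. -/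
theorem sq_le_of_pow {n k m l : ℕ} (hl : 2 ≤ l) (hk : 5 ≤ k) (hkn : k ≤ n)
    (h : n.descFactorial k = m ^ l) : k * k ≤ n := by
  by_contra hn
  rw [not_le] at hn
  by_cases h2 : n < 2 * k
  · obtain ⟨p, hp, h1, hp2⟩ := Nat.exists_prime_lt_and_le_two_mul (n / 2) (by omega)
    refine false_of_single hl hkn h hp (x := p) (by omega) (by omega) dvd_rfl ?_ ?_
    · have := Nat.mul_le_mul_right p hp.two_le
      omega
    · intro y hy hy' hd
      obtain ⟨c, rfl⟩ := hd
      rcases Nat.lt_or_ge c 2 with hc | hc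
      · interval_cases c <;> omega
      · have := Nat.mul_le_mul_left p hc
        omega
  have hle := fun p hp hd => prime_le_of_square (p := p) hl hkn hn h hp hd
  by_cases hbig : 16384 ≤ k
  · exact false_large hbig (by omega) hn hle
  obtain ⟨t, ht, hta, htb⟩ := exists_tier hk (by omega)
  obtain ⟨hcube, hsmall⟩ := tiers_bounds t ht
  have hnN : n ≤ t.2.2.1 := by
    rcases tiers_split t ht with hb | ha
    · have := Nat.pow_le_pow_left (show k ≤ t.2.1 - 1 by omega) 2
      have := hsmall hb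
      rw [sq k] at *
      omega
    · have h3 := sq_lt_cube (by omega) (by omega) hle
      have h4 := (Nat.pow_le_pow_left (show k ≤ t.2.1 - 1 by omega) 3).trans (hcube ha)
      exact (lt_of_pow_lt_pow_left' 2 (h3.trans_le h4)).le
  obtain ⟨x, q, hxn, hnx, hq, hdx, hsq, hbq⟩ :=
    exists_of_coversUpTo (tiers_covered t ht) (n := n) (by omega) hnN
  refine false_of_single hl hkn h hq (x := x) (by omega) hxn hdx (by omega) fun y hy hy' hdy => ?_
  rcases hbq with hb | ⟨rfl, ha⟩
  · exact multiple_unique (by omega) (by omega) hxn hy hy' hdx hdy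
  · obtain ⟨c, rfl⟩ := hdy
    rcases Nat.lt_or_ge c 2 with hc | hc
    · interval_cases c <;> omega
    · have := Nat.mul_le_mul_left q hc
      omega

/-- **Sylvester's theorem** for square products. -/
theorem sq_le_of_square {n k m : ℕ} (hk : 5 ≤ k) (hkn : k ≤ n)
    (h : n.descFactorial k = m ^ 2) : k * k ≤ n :=
  sq_le_of_pow le_rfl hk hkn h

end FA.Erdos

end
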