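import Fermat.Agent.Erdos.SquareSylvester

/-!
# The theorem of Sylvester and Schur

For `1 ≤ k` and `2 k ≤ n` the binomial coefficient `n.choose k` has a prime factor above `k`.
Below `k ^ 2` this is the argument for square products, with further covers where a tier uses the
prime `k` itself; above, the primes up to `k` are too few.
-/

set_option autoImplicit false

noncomputable section

namespace FA.Erdos

open Finset Nat

/-- `(k, N, cover)`: the lengths whose tier uses `k` itself, with `2 k ≤ n ≤ N`. -/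
def extraTiers : List (ℕ × ℕ × List (ℕ × ℕ)) :=
  [
    (3, 26, [(5, 5), (7, 7), (10, 5), (13, 13), (15, 5), (17, 17), (20, 5), (23, 23), (26, 13)]),
    (4, 15, [(7, 7), (11, 11), (15, 5)]),
    (5, 55, [(7, 7), (11, 11), (14, 7), (19, 19), (23, 23), (28, 7), (33, 11), (38, 19),
      (43, 43), (47, 47), (52, 13)]),
    (7, 93, [(13, 13), (19, 19), (26, 13), (33, 11), (39, 13), (46, 23), (53, 53), (59, 59),
      (66, 11), (73, 73), (79, 79), (86, 43), (93, 31)]),
    (11, 120, [(19, 19), (29, 29), (39, 13), (47, 47), (58, 29), (69, 23), (79, 79), (89, 89),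
      (97, 97), (107, 107), (118, 59)]),
    (13, 168, [(23, 23), (34, 17), (47, 47), (59, 59), (71, 71), (83, 83), (95, 19), (107, 107),
      (119, 17), (131, 131), (142, 71), (155, 31), (167, 167)]),
    (19, 360, [(37, 37), (53, 53), (71, 71), (89, 89), (107, 107), (124, 31), (142, 71),
      (161, 23), (179, 179), (197, 197), (215, 43), (233, 233), (251, 251), (269, 269),
      (287, 41), (305, 61), (322, 23), (341, 31), (359, 359)]),
    (127, 1432, [(251, 251), (373, 373), (499, 499), (626, 313), (753, 251), (879, 293),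
      (1006, 503), (1132, 283), (1259, 1259), (1385, 277)])]

theorem extraTiers_covered : ∀ t ∈ extraTiers,
    coversUpTo t.1 (t.1 + 2) t.2.1 (2 * t.1) t.2.2 = true := by
  decide +kernel

theorem extraTiers_mem : ∀ k, k ∈ [3, 4, 5, 7, 11, 13, 19, 127] → ∃ t ∈ extraTiers, t.1 = k ∧
    (k = 3 → t.2.1 = 26) ∧ (k = 5 → t.2.1 = 55) ∧ (k = 7 → t.2.1 = 93) ∧
    (k * k ≤ t.2.1 + 1 ∨ k = 127 ∧ t.2.1 = 1432) := by
  decide +kernel

/-- The tiers use no prime equal to the length outside the extra ones. -/
theorem tiers_strict : ∀ t ∈ tiers, ∀ e ∈ t.2.2.2, e.2 + 1 = t.2.1 →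
    e.2 = e.1 ∨ t.2.1 - 1 ∈ [5, 7, 11, 13, 19, 127] := by
  decide +kernel

theorem exists_mem_of_coversUpTo {a b N n : ℕ} : ∀ {cur : ℕ} {l : List (ℕ × ℕ)},
    coversUpTo a b N cur l = true → cur ≤ n → n ≤ N →
    ∃ e ∈ l, e.1 ≤ n ∧ n < e.1 + a ∧ e.2.Prime ∧ e.2 ∣ e.1 ∧ (b ≤ e.2 + 1 ∨ e.2 = e.1) := by
  intro cur l
  induction l generalizing cur with
  | nil => intro h h1 h2; simp [coversUpTo] at h; omega
  | cons c l ih =>
    obtain ⟨x, q⟩ := c
    intro h h1 h2
    simp only [coversUpTo, Bool.and_eq_true, decide_eq_true_eq] at h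
    obtain ⟨⟨⟨⟨⟨hx, hb⟩, hsq⟩, hmod⟩, hq⟩, hl⟩ := h
    by_cases hn : n < x + a
    · exact ⟨(x, q), List.mem_cons_self .., by omega, hn, prime_of_trialPrime hq,
        Nat.dvd_of_mod_eq_zero hmod, by omega⟩
    · obtain ⟨e, he, he'⟩ := ih hl (by omega) h2
      exact ⟨e, List.mem_cons_of_mem _ he, he'⟩

/-- A prime above `k` dividing one of the `k` numbers divides the coefficient. -/
theorem dvd_choose_of_dvd_mem {n k q x : ℕ} (hkn : k ≤ n) (hq : q.Prime) (hqk : k < q)
    (hx : n - k < x) (hx' : x ≤ n) (hd : q ∣ x) : q ∣ n.choose k := by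
  have h : q ∣ n.descFactorial k := by
    rw [descFactorial_eq_prod_Ioc hkn]
    exact hd.trans (dvd_prod_of_mem _ (mem_Ioc.2 ⟨hx, hx'⟩))
  rw [descFactorial_eq_factorial_mul_choose] at h
  exact (hq.dvd_mul.1 h).resolve_left fun h' => absurd (hq.dvd_factorial.1 h') (by omega)

/-- Above `k ^ 2`, or where `n ^ (k - π k)` reaches `k ^ k`, there is such a prime. -/
theorem false_of_pow_le {n k : ℕ} (hk : 2 ≤ k) (hkn : k < n) {e : ℕ}
    (he : e + primesUpTo k = k) (hbig : k ^ k ≤ n ^ e)
    (hle : ∀ p, p.Prime → p ∣ n.choose k → p ≤ k) : False := by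
  have hC := choose_le_pow_primesUpTo (by omega) hkn.le hle
  have hlo := pow_lt_pow_mul_choose (n := n) (k := k) hk hkn
  have := Nat.mul_le_mul hbig hC
  rw [← pow_add, he] at this
  omega

/-- **Sylvester–Schur**: `n.choose k` has a prime factor above `k`. -/
theorem exists_prime_gt_dvd_choose {n k : ℕ} (hk : 1 ≤ k) (hkn : 2 * k ≤ n) :
    ∃ p, p.Prime ∧ k < p ∧ p ∣ n.choose k := by
  by_contra hcon
  simp only [not_exists, not_and] at hcon
  have hle : ∀ p, p.Prime → p ∣ n.choose k → p ≤ k := fun p hp hd => by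
    by_contra hc
    exact hcon p hp (not_le.1 hc) hd
  rcases eq_or_lt_of_le hk with rfl | hk2
  · have := Nat.minFac_prime (show n ≠ 1 by omega)
    exact hcon _ this this.one_lt (by rw [Nat.choose_one_right]; exact Nat.minFac_dvd n)
  -- the lengths with a cover of their own
  have hspecial : ∀ t ∈ extraTiers, t.1 = k → n ≤ t.2.1 → False := fun t ht e hN => by
    obtain ⟨⟨x, q⟩, -, hxn, hnx, hq, hdx, hbq⟩ :=
      exists_mem_of_coversUpTo (extraTiers_covered t ht) (n := n) (by omega) hN
    refine hcon q hq ?_ (dvd_choose_of_dvd_mem (by omega) hq ?_ (by omega) hxn hdx) <;> omega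
  have hextra := extraTiers_mem k
  by_cases hn : k * k ≤ n
  · -- the primes up to `k` are too few
    by_cases h357 : k = 3 ∨ k = 5 ∨ k = 7
    · obtain ⟨t, ht, htk, h3, h5, h7, -⟩ := hextra (by
        rcases h357 with rfl | rfl | rfl <;> simp)
      by_cases hnN : n ≤ t.2.1
      · exact hspecial t ht htk hnN
      · rcases h357 with rfl | rfl | rfl
        · have := h3 rfl
          exact false_of_pow_le (e := 1) (by norm_num) (by omega) (by decide)
            (by rw [pow_one]; omega) hle
        · have := h5 rfl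
          exact false_of_pow_le (e := 2) (by norm_num) (by omega) (by decide)
            (le_trans (by norm_num) (Nat.pow_le_pow_left (show 56 ≤ n by omega) 2)) hle
        · have := h7 rfl
          exact false_of_pow_le (e := 3) (by norm_num) (by omega) (by decide)
            (le_trans (by norm_num) (Nat.pow_le_pow_left (show 94 ≤ n by omega) 3)) hle
    · have hP2 : 2 * primesUpTo k ≤ k := by
        by_cases h9 : 9 ≤ k
        · have := two_mul_primesUpTo_lt h9
          omega
        · interval_cases k <;> first | omega | decide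
      refine false_of_pow_le (e := k - primesUpTo k) hk2 (by omega) (by omega) ?_ hle
      calc k ^ k ≤ k ^ (2 * (k - primesUpTo k)) := Nat.pow_le_pow_right (by omega) (by omega)
        _ = (k * k) ^ (k - primesUpTo k) := by rw [pow_mul, sq]
        _ ≤ n ^ (k - primesUpTo k) := Nat.pow_le_pow_left hn _
  rw [not_le] at hn
  have hk3 : 3 ≤ k := by
    by_contra hc
    obtain rfl : k = 2 := by omega
    omega
  by_cases hbig : 16384 ≤ k
  · exact false_large hbig hkn hn hle
  by_cases hex : k ∈ [3, 4, 5, 7, 11, 13, 19, 127]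
  · obtain ⟨t, ht, htk, -, -, -, hN⟩ := hextra hex
    refine hspecial t ht htk ?_
    rcases hN with hN | ⟨rfl, hN⟩
    · omega
    · have := sq_lt_cube (n := n) (by norm_num) hkn hle
      by_contra hc
      have := Nat.pow_le_pow_left (show 1433 ≤ n by omega) 2
      omega
  have hk5 : 5 ≤ k := by
    simp only [List.mem_cons, List.not_mem_nil, or_false] at hex
    omega
  obtain ⟨t, ht, hta, htb⟩ := exists_tier hk5 (by omega)
  obtain ⟨hcube, hsmall⟩ := tiers_bounds t ht
  have hnN : n ≤ t.2.2.1 := by
    rcases tiers_split t ht with hb | ha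
    · have := Nat.pow_le_pow_left (show k ≤ t.2.1 - 1 by omega) 2
      have := hsmall hb
      rw [sq k] at *
      omega
    · have h3 := sq_lt_cube (by omega) hkn hle
      have h4 := (Nat.pow_le_pow_left (show k ≤ t.2.1 - 1 by omega) 3).trans (hcube ha)
      exact (lt_of_pow_lt_pow_left' 2 (h3.trans_le h4)).le
  obtain ⟨e, he, hxn, hnx, hq, hdx, hbq⟩ :=
    exists_mem_of_coversUpTo (tiers_covered t ht) (n := n) (by omega) hnN
  have hqk : k < e.2 := by
    rcases hbq with hb | hb
    · by_contra hc
      have heq : e.2 + 1 = t.2.1 := by omega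
      rcases tiers_strict t ht e he heq with h' | h'
      · omega
      · refine hex ?_
        rw [show k = t.2.1 - 1 by omega]
        exact List.mem_cons_of_mem 3 (List.mem_cons_of_mem 4 h')
    · omega
  exact hcon _ hq hqk (dvd_choose_of_dvd_mem (by omega) hq hqk (by omega) hxn hdx)

end FA.Erdos

end
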